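import Fermat.Agent.BadOdd.Descent
import Fermat.Agent.Mod2.HeckeDefs

/-!
# Fixed lifts at even level, away from the Eisenstein part

`exists_fixed_lift_atMax`: for `2 ∣ M`, an odd prime `q ∤ M` and a mod 2 eigensystem `θ` of level
`Mq` with `θ (T_ℓ) = 1` and `θ (U_2) = 1`, a vector at `θ` fixed by inertia at `q` is the reduction
of a lattice vector fixed by inertia (assuming `DvdOrdRed` at levels divisible by four). An operator
congruent to `1` at `θ` divides such vectors (`exists_eq_tauMat_of_isAtMax`); we divide by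
`T_ℓ - ℓ - 1` if `4 ∣ M`, and by `U_2 (T_ℓ - ℓ - 1)`, descending from level `2Mq`, otherwise.
-/

set_option autoImplicit false
set_option linter.style.haveILetI false
set_option linter.unusedSectionVars false
set_option maxHeartbeats 1600000
set_option synthInstance.maxHeartbeats 400000

noncomputable section

open ModularCurve AlgebraicCurve Matrix

namespace FLTAgent.BadOdd

open FLTAgent.Mod2

local notation "Qb" => AlgebraicClosure ℚ
local notation "Γℚ" => (AlgebraicClosure ℚ ≃ₐ[ℚ] AlgebraicClosure ℚ)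

variable (A : ValuationSubring Qb) {q : ℕ} [Fact q.Prime] (hA : A.LiesOverPrime q)

include hA in
/-- `exists_fixed_lift_eisOp` with the level named. -/
theorem exists_fixed_lift_eisOp' {N M : ℕ} [NeZero N] [NeZero M] (hN : N = M * q) {p : ℕ}
    [Fact p.Prime] (hpq : p ≠ q) (hqM : ¬ q ∣ M) {ℓ : ℕ} (hℓ : ℓ.Prime) (hℓN : ¬ ℓ ∣ N)
    (hdvd : ∀ n : ℕ, ¬ q ∣ n → DvdOrdRed A (Fact.out : q.Prime) hqM hA n) (m : ℕ)
    (x : Fin (Period.rankH N) → ZMod (p ^ m))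
    (hfix : ∀ τ ∈ A.inertiaSubgroupIn ℚ,
      (PadicInt.toZModPow m).mapMatrix (galP p N τ) *ᵥ x = x) :
    ∃ w : Fin (Period.rankH N) → ℤ_[p],
      (∀ τ ∈ A.inertiaSubgroupIn ℚ, galP p N τ *ᵥ w = w) ∧
        (fun i => PadicInt.toZModPow m (w i)) = (Int.castRingHom (ZMod (p ^ m))).mapMatrix
          (HeckeH.heckeMatHom N (eisOp N hℓ hℓN)) *ᵥ x := by
  subst hN
  exact exists_fixed_lift_eisOp A p hpq hqM hA hℓ hℓN hdvd m x hfix

/-- An operator congruent to `1` at `θ` divides the vectors at `θ`, compatibly with inertia. -/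
theorem exists_eq_tauMat_of_isAtMax {L : ℕ} [NeZero L] (θ : Reps.TZ L →+* ZMod 2) {c : Reps.TZ L}
    (hc : θ c = 1) {n : ℕ} {x : HVec L (ZMod (2 ^ n))} (hx : IsAtMax θ x) {I : Set Γℚ}
    (hfix : ∀ τ ∈ I, galMod L n τ *ᵥ x = x) :
    ∃ y : HVec L (ZMod (2 ^ n)), x = tauMat L (ZMod (2 ^ n)) c *ᵥ y ∧
      ∀ τ ∈ I, galMod L n τ *ᵥ y = y := by
  obtain ⟨N, hN⟩ := hx
  have h0 := hN (fun _ => 1 - c) fun _ => by rw [map_sub, map_one, hc, sub_self]
  rw [Finset.prod_const, Finset.card_univ, Fintype.card_fin] at h0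
  set S : Reps.TZ L := ∑ i ∈ Finset.range N, (1 - c) ^ i with hS
  have e : c * S = 1 - (1 - c) ^ N := by
    rw [hS, ← geom_sum_mul_neg, sub_sub_cancel, mul_comm]
  refine ⟨tauMat L (ZMod (2 ^ n)) S *ᵥ x, ?_, fun τ hτ => ?_⟩
  · rw [Matrix.mulVec_mulVec, ← map_mul, e, map_sub, map_one, Matrix.sub_mulVec, Matrix.one_mulVec,
      h0, sub_zero]
  · have hcomm : Commute (galMod L n τ) (tauMat L (ZMod (2 ^ n)) S) := by
      have h := ((Reps.galModel L 2).commute_hecke τ S).map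
        (PadicInt.toZModPow (p := 2) n).mapMatrix
      have e2 : (PadicInt.toZModPow (p := 2) n).mapMatrix
          ((Int.castRingHom ℤ_[2]).mapMatrix (HeckeH.heckeMatHom L S)) =
          tauMat L (ZMod (2 ^ n)) S := Matrix.ext fun i j => by simp [tauMat]
      rw [← e2]
      exact h
    rw [Matrix.mulVec_mulVec, hcomm.eq, ← Matrix.mulVec_mulVec, hfix τ hτ]

variable {M : ℕ} [NeZero M]

include hA in
/-- Fixed torsion at `θ` lifts to fixed lattice vectors, for `2 ∣ M` and a non-Eisenstein `θ`. -/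
theorem exists_fixed_lift_atMax (hq2 : q ≠ 2) (hqM : ¬ q ∣ M) (h2 : 2 ∣ M)
    (hdvd : ∀ M' : ℕ, ∀ _ : NeZero M', ∀ hqM' : ¬ q ∣ M', 4 ∣ M' → ∀ n : ℕ, ¬ q ∣ n →
      DvdOrdRed A (Fact.out : q.Prime) hqM' hA n)
    (θ : Reps.TZ (M * q) →+* ZMod 2) {ℓ : ℕ} (hℓ : ℓ.Prime) (hℓ2 : ℓ ≠ 2) (hℓL : ¬ ℓ ∣ M * q)
    (hne : θ (Reps.heckeTOf hℓ hℓL) = 1)
    (hU2 : θ (Reps.heckeGenOf (M * q) ⟨2, Nat.prime_two⟩) = 1) (n : ℕ)
    (x : HVec (M * q) (ZMod (2 ^ n))) (hx : IsAtMax θ x)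
    (hfix : ∀ τ ∈ A.inertiaSubgroupIn ℚ, galMod (M * q) n τ *ᵥ x = x) :
    ∃ w : HVec (M * q) ℤ_[2], (fun i => PadicInt.toZModPow n (w i)) = x ∧
      ∀ τ ∈ A.inertiaSubgroupIn ℚ, galM (M * q) τ *ᵥ w = w := by
  haveI : Fact (Nat.Prime 2) := ⟨Nat.prime_two⟩
  have hθe : θ (eisOp (M * q) hℓ hℓL) = 1 := by
    rw [eisOp, map_sub, map_intCast, hne]
    have hodd : ((((ℓ : ℤ) + 1 : ℤ)) : ZMod 2) = 0 := by
      rw [ZMod.intCast_zmod_eq_zero_iff_dvd]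
      have := hℓ.odd_of_ne_two hℓ2
      obtain ⟨k, hk⟩ := this
      exact ⟨k + 1, by push_cast [hk]; ring⟩
    rw [hodd, sub_zero]
  by_cases h4 : 4 ∣ M
  · obtain ⟨y, hy, hyfix⟩ := exists_eq_tauMat_of_isAtMax θ hθe hx hfix
    obtain ⟨w, hw, he⟩ := exists_fixed_lift_eisOp A 2 (Ne.symm hq2) hqM hA hℓ hℓL
      (hdvd M ‹_› hqM h4) n y hyfix
    exact ⟨w, by rw [he, hy]; rfl, hw⟩
  · have hc : θ (Reps.heckeGenOf (M * q) ⟨2, Nat.prime_two⟩ * eisOp (M * q) hℓ hℓL) = 1 := by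
      rw [map_mul, hU2, hθe, mul_one]
    obtain ⟨y, hy, hyfix⟩ := exists_eq_tauMat_of_isAtMax θ hc hx hfix
    have hℓ' : ¬ ℓ ∣ M * q * 2 := fun h =>
      (hℓ.dvd_mul.mp h).elim hℓL fun h => hℓ2 ((Nat.prime_dvd_prime_iff_eq hℓ Nat.prime_two).mp h)
    have hqM' : ¬ q ∣ M * 2 := fun h =>
      ((Fact.out : q.Prime).dvd_mul.mp h).elim hqM fun h =>
        hq2 ((Nat.prime_dvd_prime_iff_eq (Fact.out : q.Prime) Nat.prime_two).mp h)
    haveI : NeZero (M * 2) := ⟨mul_ne_zero (NeZero.ne M) two_ne_zero⟩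
    obtain ⟨w, hw, he⟩ := exists_fixed_lift_descend (M * q) 2 2 Nat.prime_two hℓ hℓL hℓ'
      (A.inertiaSubgroupIn ℚ : Set Γℚ) n
      (fun z hz => exists_fixed_lift_eisOp' A hA (mul_right_comm M q 2) (Ne.symm hq2) hqM' hℓ hℓ'
        (hdvd (M * 2) ‹_› hqM' (by
          obtain ⟨k, hk⟩ := h2
          exact ⟨k, by rw [hk]; ring⟩)) n z hz)
      y hyfix
    exact ⟨w, by rw [he, hy]; rfl, hw⟩

end FLTAgent.BadOdd
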