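import Fermat.Agent.BadOdd.FixedLift
import Fermat.Agent.Lower.Lift.HopP.PushTransfer
import Fermat.Agent.Degen.Twist
import Fermat.Agent.Kronecker.HeckeGalois

/-!
# Descent of fixed lifts from level `N r` to level `N`

Pushforward along `α` (`pushDiv`) is `corTw` in torsion coordinates (`coordTors_pushDiv`); it is
Galois equivariant (`corTw_galP`) and composed with pullback along `β` it is `U_r`
(`corTw_mul_degTw`). Hence fixed lifts for `T_ℓ - ℓ - 1` at level `N r` give fixed lifts for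
`U_r (T_ℓ - ℓ - 1)` at level `N` (`exists_fixed_lift_descend`).
-/

set_option autoImplicit false
set_option linter.style.haveILetI false
set_option linter.unusedSectionVars false
set_option maxHeartbeats 1600000
set_option synthInstance.maxHeartbeats 400000

noncomputable section

open ModularCurve AlgebraicCurve Matrix
open SemilinearAut (degZeroSMulHom coe_degZeroSMulHom pic0_smul_mk)

namespace FLTAgent.BadOdd

local notation "Qb" => AlgebraicClosure ℚ
local notation "Γℚ" => (AlgebraicClosure ℚ ≃ₐ[ℚ] AlgebraicClosure ℚ)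

theorem pullbackAlong_congr {K F F' : Type*} [Field K] [Field F] [Field F'] [Algebra K F]
    [Algebra K F'] [HasPrincipalDivisors K F'] {φ ψ : F →ₐ[K] F'} (h : φ = ψ)
    (hφ : φ.toRingHom.IsIntegral) (hψ : ψ.toRingHom.IsIntegral) (D : Divisor K F) :
    Divisor.pullbackAlong φ hφ D = Divisor.pullbackAlong ψ hψ D := by
  subst h
  rfl

variable (N r : ℕ) [NeZero N] [NeZero r]

theorem heckeAlphaBar_isIntegral : (heckeAlphaBar Qb N r).toRingHom.IsIntegral :=
  haveI := Kronecker.isFF_bar N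
  haveI := Kronecker.isFF_bar (N * r)
  FF.isIntegral_alongFF _

/-- Pushforward of divisors of degree zero along `α`. -/
def pushDiv (D : Divisor.degZero (K := Qb) (F := modularFunctionFieldBar (N * r))) :
    Divisor.degZero (K := Qb) (F := modularFunctionFieldBar N) :=
  ⟨Divisor.pushforwardAlong (heckeAlphaBar Qb N r) (heckeAlphaBar_isIntegral N r) D,
    Divisor.pushforwardAlong_mem_degZero (heckeAlphaBar Qb N r) (heckeAlphaBar_isIntegral N r) D.2⟩

theorem pushDiv_mem_torsion {n : ℕ}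
    {D : Divisor.degZero (K := Qb) (F := modularFunctionFieldBar (N * r))}
    (hD : Pic0.mk D ∈ Reps.tors (N * r) n) : Pic0.mk (pushDiv N r D) ∈ Reps.tors N n := by
  haveI := Kronecker.isFF_bar N
  haveI := Kronecker.isFF_bar (N * r)
  have hfin : FiniteAlong Qb (heckeAlphaBar Qb N r) := FF.finiteAlong _
  have hN : NormFormulaAlong Qb (heckeAlphaBar Qb N r) hfin :=
    FF.normFormulaAlong _ hfin (FF.separableAlong _)
  have h0 : Pic0.mk ((n : ℤ) • D) = 0 :=
    (map_zsmul (QuotientAddGroup.mk' _) (n : ℤ) D).trans (Pic0.mem_torsion.mp hD)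
  have h1 := Divisor.isPrincipal_pushforwardAlong (heckeAlphaBar Qb N r)
    (heckeAlphaBar_isIntegral N r) hfin hN
    (AddSubgroup.mem_addSubgroupOf.mp ((QuotientAddGroup.eq_zero_iff _).1 h0))
  rw [AddSubgroupClass.coe_zsmul, map_zsmul] at h1
  rw [Pic0.mem_torsion, show (n : ℤ) • Pic0.mk (pushDiv N r D) = Pic0.mk ((n : ℤ) • pushDiv N r D)
    from (map_zsmul (QuotientAddGroup.mk' _) (n : ℤ) (pushDiv N r D)).symm]
  exact (QuotientAddGroup.eq_zero_iff _).2 (AddSubgroup.mem_addSubgroupOf.mpr h1)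

theorem pushDiv_smul (σ : Γℚ)
    (D : Divisor.degZero (K := Qb) (F := modularFunctionFieldBar (N * r))) :
    pushDiv N r (degZeroSMulHom (LowerQ.galF (N * r) σ) D) =
      degZeroSMulHom (LowerQ.galF N σ) (pushDiv N r D) :=
  Subtype.ext (Kronecker.pushforwardAlong_smul (K := Qb) (F := modularFunctionFieldBar N)
    (F' := modularFunctionFieldBar (N * r)) (heckeAlphaBar Qb N r) (heckeAlphaBar_isIntegral N r)
    (g := LowerQ.galF N σ) (g' := LowerQ.galF (N * r) σ)
    (Kronecker.intertwinesAlong_heckeAlphaBar Qb N r σ)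
    (Kronecker.deg_eq_one_bar N) (Kronecker.deg_eq_one_bar (N * r))
    (D : Divisor Qb (modularFunctionFieldBar (N * r))))

theorem finrankAlong_alpha_eq_index [Fintype (CongruenceSubgroup.Gamma0 N ⧸ Degen.subG0 N (N * r))] :
    finrankAlong Qb (heckeAlphaBar Qb N r) =
      Fintype.card (CongruenceSubgroup.Gamma0 N ⧸ Degen.subG0 N (N * r)) := by
  refine Nat.eq_of_mul_eq_mul_right (ModularCosets.dedekindPsi_pos N) ?_
  rw [ModularCosets.finrankAlong_heckeAlphaBar_mul N Qb r ModularCosets.iotaBar,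
    ← Nat.card_eq_fintype_card]
  exact (Degen.index_subG0 (dvd_mul_right N r)).symm

/-- Pushforward is `corTw` in coordinates. -/
theorem coordTors_pushDiv {n : ℕ} [NeZero n]
    {D : Divisor.degZero (K := Qb) (F := modularFunctionFieldBar (N * r))}
    (hD : Pic0.mk D ∈ Reps.tors (N * r) n) :
    Reps.coordTors N n ⟨Pic0.mk (pushDiv N r D), pushDiv_mem_torsion N r hD⟩ =
      (Degen.corTw (N := N) (M := N * r)).map (Int.castRingHom (ZMod n)) *ᵥ
        Reps.coordTors (N * r) n ⟨Pic0.mk D, hD⟩ := by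
  classical
  haveI : Fintype (CongruenceSubgroup.Gamma0 N ⧸ Degen.subG0 N (N * r)) := Fintype.ofFinite _
  rw [Reps.coordTors_apply, Reps.coordTors_apply,
    Lower.Lift.jTorsionEquiv_push Reps.qbarEmb (finrankAlong_alpha_eq_index N r)
      (heckeAlphaBar_isIntegral N r) D hD (pushDiv N r D) rfl (pushDiv_mem_torsion N r hD)]
  refine Eq.trans ?_ (Degen.mulVec_evalEquiv (Degen.corTw (N := N) (M := N * r)) _).symm
  refine congrArg _ ?_
  rw [Degen.corTw, Degen.rectAct_mul, Degen.rectAct_mul, Degen.rectAct_frickeMat,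
    Degen.rectAct_frickeMat, Degen.rectAct_corMat, HeckeH.wH_wH]

variable (p : ℕ) [Fact p.Prime]

/-- `corTw` is Galois equivariant. -/
theorem corTw_galP (σ : Γℚ) :
    (Degen.corTw (N := N) (M := N * r)).map (Int.castRingHom ℤ_[p]) * galP p (N * r) σ =
      galP p N σ * (Degen.corTw (N := N) (M := N * r)).map (Int.castRingHom ℤ_[p]) := by
  ext i j
  refine PadicInt.ext_of_toZModPow.mp fun m => ?_
  haveI : NeZero (p ^ m) := ⟨pow_ne_zero _ (Fact.out : p.Prime).ne_zero⟩
  have key : (Degen.corTw (N := N) (M := N * r)).map (Int.castRingHom (ZMod (p ^ m))) *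
        (galP p (N * r) σ).map (PadicInt.toZModPow (p := p) m) =
      (galP p N σ).map (PadicInt.toZModPow (p := p) m) *
        (Degen.corTw (N := N) (M := N * r)).map (Int.castRingHom (ZMod (p ^ m))) := by
    refine Matrix.mulVec_injective (funext fun v => ?_)
    obtain ⟨x, rfl⟩ := (Reps.coordTors (N * r) (p ^ m)).surjective v
    obtain ⟨x, hx⟩ := x
    obtain ⟨D, rfl⟩ := Pic0.mk_surjective x
    rw [← Matrix.mulVec_mulVec, ← Matrix.mulVec_mulVec]
    have e1 := galP_coord (p := p) (N * r) m σ ⟨Pic0.mk D, hx⟩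
    rw [RingHom.mapMatrix_apply] at e1
    rw [e1, ← coordTors_pushDiv N r hx]
    have e2 := galP_coord (p := p) N m σ ⟨Pic0.mk (pushDiv N r D), pushDiv_mem_torsion N r hx⟩
    rw [RingHom.mapMatrix_apply] at e2
    rw [e2]
    have hmk : (JZero.torsionGaloisRep (N * r) (p ^ m) σ ⟨Pic0.mk D, hx⟩ :
        Reps.tors (N * r) (p ^ m)).1 = Pic0.mk (degZeroSMulHom (LowerQ.galF (N * r) σ) D) :=
      pic0_smul_mk _ _
    have hmem : Pic0.mk (degZeroSMulHom (LowerQ.galF (N * r) σ) D) ∈ Reps.tors (N * r) (p ^ m) :=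
      hmk ▸ (JZero.torsionGaloisRep (N * r) (p ^ m) σ ⟨Pic0.mk D, hx⟩).2
    rw [show JZero.torsionGaloisRep (N * r) (p ^ m) σ ⟨Pic0.mk D, hx⟩ = ⟨_, hmem⟩ from
      Subtype.ext hmk, ← coordTors_pushDiv N r hmem]
    refine congrArg _ (Subtype.ext ?_)
    show Pic0.mk (pushDiv N r _) = LowerQ.galF N σ • Pic0.mk (pushDiv N r D)
    rw [pic0_smul_mk, pushDiv_smul]
  have e := congrFun (congrFun key i) j
  simp only [Matrix.mul_apply, Matrix.map_apply] at e
  rw [Matrix.mul_apply, Matrix.mul_apply, map_sum, map_sum]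
  simpa only [map_mul, Matrix.map_apply, eq_intCast, map_intCast] using e

theorem degBar_eq_heckeBetaBar :
    Degen.degBar (N := N) (M := N * r) r dvd_rfl = heckeBetaBar Qb N r :=
  AlgHom.ext fun _ => Subtype.ext rfl

/-- `U_r = α_* β^*` in coordinates. -/
theorem corTw_mul_degTw (hr : r.Prime) {n : ℕ} [NeZero n] :
    (Degen.corTw (N := N) (M := N * r)).map (Int.castRingHom (ZMod n)) *
        (Degen.degTw r (dvd_rfl : N * r ∣ N * r)).map (Int.castRingHom (ZMod n)) =
      (Int.castRingHom (ZMod n)).mapMatrix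
        (HeckeH.heckeMatHom N (Reps.heckeGenOf N ⟨r, hr⟩)) := by
  refine Matrix.mulVec_injective (funext fun v => ?_)
  obtain ⟨x, rfl⟩ := (Reps.coordTors N n).surjective v
  obtain ⟨x, hx⟩ := x
  obtain ⟨D, rfl⟩ := Pic0.mk_surjective x
  rw [← Matrix.mulVec_mulVec]
  have e1 : (Degen.degTw r (dvd_rfl : N * r ∣ N * r)).map (Int.castRingHom (ZMod n)) *ᵥ
      Reps.coordTors N n ⟨Pic0.mk D, hx⟩ = Reps.coordTors (N * r) n
        ⟨Degen.degPic r dvd_rfl (Pic0.mk D : JZero N), Degen.degPic_mem_torsion r dvd_rfl hx⟩ :=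
    (Degen.mulVec_evalEquiv _ _).trans
      (congrArg _ (Degen.heckeTorsionEquiv_degPic Reps.qbarEmb r dvd_rfl ⟨Pic0.mk D, hx⟩).symm)
  have hmem := Degen.degPic_mem_torsion r (dvd_rfl : N * r ∣ N * r) hx
  rw [Degen.degPic_mk] at hmem
  rw [e1, show (⟨Degen.degPic r dvd_rfl (Pic0.mk D : JZero N),
      Degen.degPic_mem_torsion r dvd_rfl hx⟩ : Reps.tors (N * r) n) = ⟨_, hmem⟩ from
      Subtype.ext (Degen.degPic_mk r dvd_rfl D), ← coordTors_pushDiv N r hmem,
    ← Reps.coordTors_hecke]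
  refine congrArg _ (Subtype.ext ?_)
  haveI := Kronecker.isFF_bar N
  obtain ⟨hα, hβ, hP, hfin, hFI, hN⟩ := Kronecker.heckeInputs_bar N r
  haveI := hP
  show _ = heckeOperatorBar N ⟨r, hr⟩ (Pic0.mk D)
  rw [show heckeOperatorBar N ⟨r, hr⟩ (Pic0.mk D) = heckeOperatorAlong Qb N r (Pic0.mk D) from rfl,
    heckeOperatorAlong_eq hα hβ hFI hfin hN, heckePic0Bar]
  refine Eq.trans ?_ (Pic0.correspondence_mk (heckeBetaBar Qb N r) (heckeAlphaBar Qb N r) hβ hα hFI
    hfin hN D).symm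
  refine congrArg Pic0.mk (Subtype.ext ?_)
  exact congrArg (Divisor.pushforwardAlong (heckeAlphaBar Qb N r) (heckeAlphaBar_isIntegral N r))
    (pullbackAlong_congr (degBar_eq_heckeBetaBar N r) _ _ (D : Divisor Qb _))

/-- A fixed lift at level `N r` descends. -/
theorem exists_fixed_lift_descend (hr : r.Prime) {ℓ : ℕ} (hℓ : ℓ.Prime) (hℓN : ¬ ℓ ∣ N)
    (hℓM : ¬ ℓ ∣ N * r) (I : Set Γℚ) (m : ℕ)
    (hup : ∀ x : Fin (Period.rankH (N * r)) → ZMod (p ^ m),
      (∀ τ ∈ I, (PadicInt.toZModPow m).mapMatrix (galP p (N * r) τ) *ᵥ x = x) →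
        ∃ w : Fin (Period.rankH (N * r)) → ℤ_[p], (∀ τ ∈ I, galP p (N * r) τ *ᵥ w = w) ∧
          (fun i => PadicInt.toZModPow m (w i)) = (Int.castRingHom (ZMod (p ^ m))).mapMatrix
            (HeckeH.heckeMatHom (N * r) (eisOp (N * r) hℓ hℓM)) *ᵥ x)
    (x : Fin (Period.rankH N) → ZMod (p ^ m))
    (hfix : ∀ τ ∈ I, (PadicInt.toZModPow m).mapMatrix (galP p N τ) *ᵥ x = x) :
    ∃ w : Fin (Period.rankH N) → ℤ_[p], (∀ τ ∈ I, galP p N τ *ᵥ w = w) ∧
      (fun i => PadicInt.toZModPow m (w i)) = (Int.castRingHom (ZMod (p ^ m))).mapMatrix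
        (HeckeH.heckeMatHom N (Reps.heckeGenOf N ⟨r, hr⟩ * eisOp N hℓ hℓN)) *ᵥ x := by
  haveI : NeZero (p ^ m) := ⟨pow_ne_zero _ (Fact.out : p.Prime).ne_zero⟩
  set f := Int.castRingHom ℤ_[p]
  set g := Int.castRingHom (ZMod (p ^ m))
  set P := Degen.degTw r (dvd_rfl : N * r ∣ N * r)
  have hfg : ∀ {a b : Type} (X : Matrix a b ℤ),
      (X.map f).map (PadicInt.toZModPow (p := p) m) = X.map g := fun X =>
    Matrix.ext fun i j => by simp [f, g]
  have hP : ∀ σ, (galP p (N * r) σ).map (PadicInt.toZModPow (p := p) m) * P.map g =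
      P.map g * (galP p N σ).map (PadicInt.toZModPow (p := p) m) := fun σ => by
    rw [← hfg, ← Matrix.map_mul, ← Matrix.map_mul,
      Degen.degTw_galois (M := N * r) Reps.qbarEmb (MN := galP p N) (MM := galP p (N * r))
        (fun m τ x => Reps.galModel_coord N p m τ x)
        (fun m τ x => Reps.galModel_coord (N * r) p m τ x) r dvd_rfl σ]
  obtain ⟨w, hw, he⟩ := hup (P.map g *ᵥ x) fun τ hτ => by
    rw [RingHom.mapMatrix_apply, Matrix.mulVec_mulVec, hP, ← Matrix.mulVec_mulVec]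
    exact congrArg _ (hfix τ hτ)
  refine ⟨(Degen.corTw (N := N) (M := N * r)).map f *ᵥ w, fun τ hτ => ?_, ?_⟩
  · rw [Matrix.mulVec_mulVec, ← corTw_galP, ← Matrix.mulVec_mulVec, hw τ hτ]
  have hS : ℓ ∉ (∅ : Set ℕ) := Set.notMem_empty ℓ
  have hcomm : P * HeckeH.heckeMatHom N (eisOp N hℓ hℓN) =
      HeckeH.heckeMatHom (N * r) (eisOp (N * r) hℓ hℓM) * P := by
    rw [eisOp, eisOp, map_sub, map_sub, map_intCast, map_intCast, Matrix.mul_sub, Matrix.sub_mul]
    congr 1
    · exact Degen.degTw_hecke hℓ r dvd_rfl hℓN hℓM hS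
    · rw [← zsmul_one, ← zsmul_one, Matrix.mul_smul, Matrix.smul_mul, Matrix.mul_one, Matrix.one_mul]
  funext i
  rw [RingHom.map_mulVec, hfg]
  show ((Degen.corTw (N := N) (M := N * r)).map g *ᵥ fun j => PadicInt.toZModPow m (w j)) i = _
  rw [he, Matrix.mulVec_mulVec, Matrix.mulVec_mulVec, RingHom.mapMatrix_apply, Matrix.mul_assoc,
    ← Matrix.map_mul, ← hcomm, Matrix.map_mul, ← Matrix.mul_assoc]
  rw [corTw_mul_degTw N r hr, map_mul, map_mul]
  rfl

end FLTAgent.BadOdd
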