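import Fermat.Agent.BadOdd.Eisenstein
import Fermat.Agent.LowerQ.ModelNode

/-!
# `DvdOrdRed` at levels divisible by four

`dvdOrdRed_of_four_dvd`: for `4 ∣ M`, `q ∤ M` and `q ∤ n` a normalised function on `X₀(Mq)` with
divisor divisible by `n` has reduced divisor divisible by `n`. It is the case `4 ∣ M` of
`LowerQ.Normal.dvd_ord_red_of_goodLevel`.
-/

set_option autoImplicit false
set_option linter.unusedSectionVars false

noncomputable section

open ModularCurve

namespace FLTAgent.BadOdd

local notation "Qb" => AlgebraicClosure ℚ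

/-- At a level `4 ∣ M`, normalised functions with divisor divisible by `n` (prime to `q`) have
reduced divisor divisible by `n`. -/
theorem dvdOrdRed_of_four_dvd (A : ValuationSubring Qb) {q : ℕ} [Fact q.Prime]
    (hA : A.LiesOverPrime q) {M : ℕ} [NeZero M] (hqM : ¬ q ∣ M) (h4 : 4 ∣ M) {n : ℕ}
    (hqn : ¬ q ∣ n) : DvdOrdRed A (Fact.out : q.Prime) hqM hA n :=
  fun _ hf v =>
    LowerQ.Normal.dvd_ord_red_of_goodLevel (Or.inl h4) hA (fun h : n = 0 => hqn (by simp [h])) hf v

end FLTAgent.BadOdd
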