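import Fermat.Agent.BadOdd.Monodromy
import Fermat.Agent.Lift.KernelCount
import Fermat.Agent.LowerQ.Descent

/-!
# The component group at `q` is Eisenstein

`DvdOrdRed` is the property that a normalised function on `X₀(Mq)` with divisor divisible by `n`
has reduced divisor divisible by `n`. Assuming it, `mem_kerPhi_of_fixed` shows that `T_ℓ - ℓ - 1`
sends an `n`-torsion class fixed by inertia at `q` into `kerPhi`: choose a fixed divisor and a fixed
function `f` for the class; then `T_ℓ f / f ^ (ℓ + 1)` is normalised on both components.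
-/

set_option autoImplicit false
set_option linter.style.haveILetI false
set_option linter.unusedSectionVars false
set_option maxHeartbeats 1600000
set_option synthInstance.maxHeartbeats 400000

noncomputable section

open ModularCurve AlgebraicCurve

namespace FLTAgent.BadOdd

open FLTAgent.BadQ FLTAgent.LowerQ

local notation "Qb" => AlgebraicClosure ℚ
local notation "Γℚ" => (AlgebraicClosure ℚ ≃ₐ[ℚ] AlgebraicClosure ℚ)

/-- The divisor of `T_ℓ f` represents `T_ℓ` of the class. -/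
theorem exists_heckeFun_rep {N ℓ : ℕ} [NeZero N] [NeZero ℓ] (hℓ : ℓ.Prime) {n : ℕ}
    {f : modularFunctionFieldBar N} (hf : f ≠ 0)
    (D : Divisor.degZero (K := Qb) (F := modularFunctionFieldBar N))
    (hdiv : ∀ P : Place Qb (modularFunctionFieldBar N),
      P.ord f = (n : ℤ) * (D : Divisor Qb (modularFunctionFieldBar N)) P) :
    ∃ E : Divisor.degZero (K := Qb) (F := modularFunctionFieldBar N),
      Pic0.mk E = heckeOperatorBar N ⟨ℓ, hℓ⟩ (Pic0.mk D) ∧
        ∀ v : Place Qb (modularFunctionFieldBar N),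
          v.ord (heckeFun N ℓ f) = (n : ℤ) * (E : Divisor Qb (modularFunctionFieldBar N)) v := by
  haveI := Kronecker.isFF_bar N
  obtain ⟨hα, hβ, hP, hfin, hFI, hN⟩ := Kronecker.heckeInputs_bar N ℓ
  haveI := hP
  haveI : NeZero (N * ℓ) := ⟨mul_ne_zero (NeZero.ne N) (NeZero.ne ℓ)⟩
  haveI := Kronecker.isFF_bar (N * ℓ)
  refine ⟨Pic0.degZeroCorrespondence (heckeBetaBar Qb N ℓ) (heckeAlphaBar Qb N ℓ) hβ hα hFI D,
    ?_, fun v => ?_⟩
  · rw [show heckeOperatorBar N ⟨ℓ, hℓ⟩ (Pic0.mk D) = heckeOperatorAlong Qb N ℓ (Pic0.mk D) from rfl,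
      heckeOperatorAlong_eq hα hβ hFI hfin hN, heckePic0Bar]
    exact (Pic0.correspondence_mk (heckeBetaBar Qb N ℓ) (heckeAlphaBar Qb N ℓ) hβ hα hFI
      hfin hN D).symm
  · let Df : Divisor Qb (modularFunctionFieldBar N) := (n : ℤ) • (D : Divisor Qb _)
    have hDf : ∀ w, Df w = w.ord f := fun w => by simp [Df, hdiv]
    have h1 : ∀ w, Divisor.pullbackAlong (heckeBetaBar Qb N ℓ) hβ Df w =
        w.ord (heckeBetaBar Qb N ℓ f) := fun w =>
      (Divisor.pullbackAlong_apply (heckeBetaBar Qb N ℓ) hβ Df w).trans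
        ((congrArg _ (hDf _)).trans (Place.ord_restrictAlong (heckeBetaBar Qb N ℓ) hβ w f).symm)
    have h2 : Divisor.pushforwardAlong (heckeAlphaBar Qb N ℓ) hα
        (Divisor.pullbackAlong (heckeBetaBar Qb N ℓ) hβ Df) v = v.ord (heckeFun N ℓ f) := by
      unfold NormFormulaAlong at hN
      exact hN _ ((map_ne_zero _).mpr hf) _ h1 v
    rw [← h2]
    simp only [Df, map_zsmul, Finsupp.smul_apply, smul_eq_mul]
    exact congrArg _ rfl

variable (A : ValuationSubring Qb) {M q : ℕ} [NeZero M] [NeZero q]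

/-- Normalised functions with divisor divisible by `n` have reduced divisor divisible by `n`. -/
def DvdOrdRed (hq : q.Prime) (hqM : ¬ q ∣ M) (hA : A.LiesOverPrime q) (n : ℕ) : Prop :=
  ∀ f : modularFunctionFieldBar (M * q), Normal hq hqM (A := A) n f →
    ∀ v : Place (IsLocalRing.ResidueField A)
        (modularFunctionFieldFullC (IsLocalRing.ResidueField A) M),
      (n : ℤ) ∣ v.ord (⟨redI A M q f, redI_mem A M q hq hqM hA f⟩ :
        modularFunctionFieldFullC (IsLocalRing.ResidueField A) M)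

variable (hq : q.Prime) (hqM : ¬ q ∣ M) (hA : A.LiesOverPrime q)

include hq hqM hA in
/-- `T_ℓ - ℓ - 1` sends torsion classes fixed by inertia into `kerPhi`. -/
theorem mem_kerPhi_of_fixed {n : ℕ} (hdvd : DvdOrdRed A hq hqM hA n) {ℓ : ℕ} (hℓ : ℓ.Prime)
    (hℓN : ¬ ℓ ∣ M * q) {x : JZero (M * q)} (hx : x ∈ Reps.tors (M * q) n)
    (hfix : ∀ σ ∈ A.inertiaSubgroupIn ℚ, σ • x = x)
    (y : Reps.tors (M * q) n)
    (hy : (y : JZero (M * q)) = heckeOperatorBar (M * q) ⟨ℓ, hℓ⟩ x - ((ℓ : ℤ) + 1) • x) :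
    y ∈ (dat A hq hqM hA).kerPhi n := by
  classical
  haveI := Fact.mk hq
  haveI := GalCommon.isAlgClosed_residueField A hq hA
  haveI : NeZero ℓ := ⟨hℓ.ne_zero⟩
  haveI := Kronecker.isFF_bar (M * q)
  set D := dat A hq hqM hA
  -- a fixed representative with a fixed function
  obtain ⟨D₀, hD₀x, hD₀fix⟩ := TwoChart.exists_fixed_divisor
    (F₀ := modularFunctionFieldFull (M * q)) (I := A.inertiaSubgroupIn ℚ) (x := x) hfix
  have hpr : (n : ℤ) • (D₀ : Divisor Qb (modularFunctionFieldBar (M * q))) ∈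
      Divisor.principal (K := Qb) (F := modularFunctionFieldBar (M * q)) := by
    have h : Pic0.mk ((n : ℤ) • D₀) = 0 := by
      rw [show Pic0.mk ((n : ℤ) • D₀) = (n : ℤ) • Pic0.mk D₀ from
        map_zsmul (QuotientAddGroup.mk' _) _ _, hD₀x]
      exact Pic0.mem_torsion.mp hx
    exact AddSubgroup.mem_addSubgroupOf.mp ((QuotientAddGroup.eq_zero_iff _).1 h)
  obtain ⟨f₁, hf₁, hdiv₁⟩ := TwoChart.exists_fixed_fun hpr fun σ hσ => by
    rw [smul_comm, hD₀fix σ hσ]
  set f₀ : modularFunctionFieldBar (M * q) := (f₁ : modularFunctionFieldBar (M * q))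
  have hf₀ : IsFixed A (M * q) f₀ := f₁.2
  have hf0 : f₀ ≠ 0 := fun h => hf₁ (Subtype.ext h)
  have hwf0 : atkinLehner hq hqM f₀ ≠ 0 := (map_ne_zero _).mpr hf0
  have hdiv : ∀ P : Place Qb (modularFunctionFieldBar (M * q)), P.ord f₀ =
      (n : ℤ) * (D₀ : Divisor Qb (modularFunctionFieldBar (M * q))) P := fun P => by
    rw [← hdiv₁ P, Finsupp.smul_apply, smul_eq_mul]
  obtain ⟨a, ha⟩ := hasOrdI_exists hq hA hf₀ hf0
  obtain ⟨b, hb⟩ := hasOrdI_exists hq hA (hf₀.wAL hq hqM) hwf0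
  -- the function of `T_ℓ x - (ℓ + 1) x`
  obtain ⟨E, hE, hEord⟩ := exists_heckeFun_rep hℓ hf0 D₀ hdiv
  set R := heckeFun (M * q) ℓ f₀ / f₀ ^ ((ℓ : ℤ) + 1) with hR
  have hR0 : R ≠ 0 := div_ne_zero (heckeFun_ne_zero hf0) (zpow_ne_zero _ hf0)
  have hRI : HasOrdI M q A R 0 := by
    have h := (ha.heckeFun' hq hA hℓ hℓN hf₀ hf0).mul hq hA ((ha.zpow hq hA ((ℓ : ℤ) + 1)).inv hq hA)
    rwa [← div_eq_mul_inv, ← hR, add_neg_cancel] at h
  have hRO : HasOrdI M q A (atkinLehner hq hqM R) 0 := by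
    have h := (hb.heckeFun' hq hA hℓ hℓN (hf₀.wAL hq hqM) hwf0).mul hq hA
      ((hb.zpow hq hA ((ℓ : ℤ) + 1)).inv hq hA)
    rwa [← div_eq_mul_inv, ← atkinLehner_heckeFun hq hqM hℓ hℓN, ← map_zpow₀, ← map_div₀, ← hR,
      add_neg_cancel] at h
  set Z : Divisor.degZero (K := Qb) (F := modularFunctionFieldBar (M * q)) :=
    E - ((ℓ : ℤ) + 1) • D₀ with hZ
  have hRdiv : ∀ P : Place Qb (modularFunctionFieldBar (M * q)),
      P.ord R = (n : ℤ) * (Z : Divisor Qb (modularFunctionFieldBar (M * q))) P := fun P => by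
    rw [hR, FF.ord_div _ (heckeFun_ne_zero hf0) (zpow_ne_zero _ hf0), P.ord_zpow, hEord, hdiv, hZ,
      AddSubgroup.coe_sub, AddSubgroupClass.coe_zsmul, Finsupp.sub_apply, Finsupp.smul_apply,
      smul_eq_mul]
    ring
  have hN : Normal hq hqM (A := A) n R :=
    ⟨(IsFixed.heckeFun' hf₀).div (hf₀.zpow _), hR0, fun P => ⟨_, hRdiv P⟩,
      ((hasOrdI_zero_iff hq hA).mp hRI).1, ((hasOrdI_zero_iff hq hA).mp hRI).2,
      ((hasOrdI_zero_iff hq hA).mp hRO).1, ((hasOrdI_zero_iff hq hA).mp hRO).2⟩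
  have hrep : Lift.Data.IsRep n (y : JZero (M * q)) Z R := by
    refine ⟨?_, hR0, Finsupp.ext fun P => ?_⟩
    · rw [hy, ← hD₀x, ← hE, hZ,
        show Pic0.mk (E - ((ℓ : ℤ) + 1) • D₀) = Pic0.mk E - Pic0.mk (((ℓ : ℤ) + 1) • D₀) from
          map_sub (QuotientAddGroup.mk' _) E (((ℓ : ℤ) + 1) • D₀),
        show Pic0.mk (((ℓ : ℤ) + 1) • D₀) = ((ℓ : ℤ) + 1) • Pic0.mk D₀ from
          map_zsmul (QuotientAddGroup.mk' _) ((ℓ : ℤ) + 1) D₀]
    · rw [D.curve.divOf_apply, Finsupp.smul_apply, smul_eq_mul, hRdiv]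
  refine (Lift.Data.mem_kerPhi hrep).mpr fun Q _ => ?_
  have hnorm : Lift.IsNormal D.Ginf (1 : Qb) R := by
    refine ⟨by rw [one_smul]; exact hN.memI, fun h => ?_⟩
    rw [one_smul] at h
    exact hN.redI_ne (congrArg Subtype.val h)
  rw [Lift.Data.dI_eq hnorm, one_smul, D.param.curveBar.divOf_apply]
  exact hdvd R hN Q

end FLTAgent.BadOdd
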