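import Fermat.Agent.BadOdd.Frobenius
import Fermat.Agent.Degen.Inputs

/-!
# The lattice fixed by inertia at `q ∥ Mq`

`fixedSub` is the sublattice of the `p`-adic Tate module of `X₀(Mq)` fixed by inertia at `q` and
`fixedVec` the `p ^ m`-torsion classes lifting to it. `finrank_fixedSub_ge` bounds its rank below by
`2 rankH M + (g(Mq) - 2 g(M))`: it contains both old images from level `M` and the toric part, which
are independent because the square of Frobenius is not `q²` on the old part. The lattice is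
saturated, so this gives a lower bound for the order of `fixedVec` (`card_fixedVec_ge`).
-/

set_option autoImplicit false
set_option linter.style.haveILetI false
set_option linter.unusedSectionVars false
set_option synthInstance.maxHeartbeats 400000
set_option maxHeartbeats 1600000

noncomputable section

open ModularCurve AlgebraicCurve Matrix

namespace FLTAgent.BadOdd

local notation "Qb" => AlgebraicClosure ℚ
local notation "Γℚ" => (AlgebraicClosure ℚ ≃ₐ[ℚ] AlgebraicClosure ℚ)

variable (A : ValuationSubring Qb) (p : ℕ) [Fact p.Prime]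

/-- The lattice vectors fixed by inertia. -/
def fixedSub (N : ℕ) [NeZero N] : Submodule ℤ_[p] (Fin (Period.rankH N) → ℤ_[p]) :=
  ⨅ τ ∈ A.inertiaSubgroupIn ℚ, LinearMap.ker (galP p N τ - 1).mulVecLin

theorem mem_fixedSub {N : ℕ} [NeZero N] {w : Fin (Period.rankH N) → ℤ_[p]} :
    w ∈ fixedSub A p N ↔ ∀ τ ∈ A.inertiaSubgroupIn ℚ, galP p N τ *ᵥ w = w := by
  simp [fixedSub, Submodule.mem_iInf, sub_eq_zero]

theorem fixedSub_saturated {N : ℕ} [NeZero N] {c : ℤ_[p]} (hc : c ≠ 0)
    {w : Fin (Period.rankH N) → ℤ_[p]} (h : c • w ∈ fixedSub A p N) : w ∈ fixedSub A p N := by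
  rw [mem_fixedSub] at h ⊢
  intro τ hτ
  have h1 := h τ hτ
  rw [Matrix.mulVec_smul] at h1
  exact smul_right_injective _ hc h1

/-- Reduction of vectors modulo `p ^ m`. -/
def redVec (r m : ℕ) : (Fin r → ℤ_[p]) →+ (Fin r → ZMod (p ^ m)) :=
  (PadicInt.toZModPow (p := p) m).toAddMonoidHom.compLeft (Fin r)

theorem redVec_apply {r m : ℕ} (w : Fin r → ℤ_[p]) (i : Fin r) :
    redVec p r m w i = PadicInt.toZModPow m (w i) := rfl

/-- A saturated sublattice of rank at least `R` has at least `p ^ (R m)` reductions. -/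
theorem card_map_redVec_ge {r R : ℕ} (W : Submodule ℤ_[p] (Fin r → ℤ_[p]))
    (hsat : ∀ (c : ℤ_[p]) (w : Fin r → ℤ_[p]), c ≠ 0 → c • w ∈ W → w ∈ W)
    (hR : R ≤ Module.finrank ℤ_[p] W) (m : ℕ) :
    p ^ (R * m) ≤ Nat.card (W.toAddSubgroup.map (redVec p r m)) := by
  classical
  have hp : p.Prime := Fact.out
  haveI : NeZero (p ^ m) := ⟨pow_ne_zero _ hp.ne_zero⟩
  let b := Module.finBasis ℤ_[p] W
  set s := Module.finrank ℤ_[p] W
  let vec : (Fin s → ℤ_[p]) → W := fun e => b.equivFun.symm e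
  let ψ : (Fin s → ZMod (p ^ m)) → W.toAddSubgroup.map (redVec p r m) := fun a =>
    ⟨redVec p r m (vec fun i => ((a i).val : ℤ_[p])),
      AddSubgroup.mem_map_of_mem _ (vec fun i => ((a i).val : ℤ_[p])).2⟩
  have hψ : Function.Injective ψ := by
    intro a a' h
    have h0 := congrArg Subtype.val h
    set d : Fin s → ℤ_[p] := fun i => ((a i).val : ℤ_[p]) - ((a' i).val : ℤ_[p]) with hd
    have h1 : redVec p r m (vec d : Fin r → ℤ_[p]) = 0 := by
      have e : vec d = vec (fun i => ((a i).val : ℤ_[p])) - vec (fun i => ((a' i).val : ℤ_[p])) :=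
        map_sub b.equivFun.symm (fun i => ((a i).val : ℤ_[p])) fun i => ((a' i).val : ℤ_[p])
      rw [e, AddSubgroupClass.coe_sub, map_sub]
      exact sub_eq_zero.mpr h0
    have h2 : ∀ i, (p : ℤ_[p]) ^ m ∣ (vec d : Fin r → ℤ_[p]) i := fun i => by
      rw [← Ideal.mem_span_singleton, ← PadicInt.ker_toZModPow, RingHom.mem_ker]
      exact congrFun h1 i
    choose v hv using h2
    have hpm : (p : ℤ_[p]) ^ m ≠ 0 := pow_ne_zero _ (Nat.cast_ne_zero.mpr hp.ne_zero)
    have hvW : v ∈ W := by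
      refine hsat _ v hpm ?_
      rw [show (p : ℤ_[p]) ^ m • v = (vec d : Fin r → ℤ_[p]) from funext fun i => (hv i).symm]
      exact (vec d).2
    have h3 : vec d = (p : ℤ_[p]) ^ m • (⟨v, hvW⟩ : W) :=
      Subtype.ext (funext fun i => hv i)
    have h4 : d = (p : ℤ_[p]) ^ m • b.equivFun ⟨v, hvW⟩ := by
      rw [← map_smul, ← h3]
      exact (b.equivFun.apply_symm_apply d).symm
    funext i
    have h5 := congrArg (PadicInt.toZModPow (p := p) m) (congrFun h4 i)
    rw [hd, map_sub, map_natCast, map_natCast, ZMod.natCast_zmod_val, ZMod.natCast_zmod_val,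
      Pi.smul_apply, smul_eq_mul, map_mul, map_pow, map_natCast, ← Nat.cast_pow, ZMod.natCast_self,
      zero_mul, sub_eq_zero] at h5
    exact h5
  haveI : Finite (W.toAddSubgroup.map (redVec p r m)) := Finite.of_injective _ Subtype.val_injective
  refine le_trans ?_ (Nat.card_le_card_of_injective ψ hψ)
  rw [Nat.card_fun, Nat.card_fin, Nat.card_zmod, ← pow_mul, mul_comm m]
  exact Nat.pow_le_pow_right hp.pos (Nat.mul_le_mul_right m hR)

variable {M q : ℕ} [NeZero M] [Fact q.Prime]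

/-- The rank of the fixed lattice. -/
theorem finrank_fixedSub_ge (hpq : p ≠ q) (hqM : ¬ q ∣ M) (hA : A.LiesOverPrime q) :
    2 * Period.rankH M + (genusFF Qb (modularFunctionFieldBar (M * q)) -
        2 * genusFF Qb (modularFunctionFieldBar M)) ≤
      Module.finrank ℤ_[p] (fixedSub A p (M * q)) := by
  classical
  have hq : q.Prime := Fact.out
  obtain ⟨B, hBinj, hBfix, hBF⟩ :=
    BadQ.exists_toric_matrix A M q hq (Ne.symm hpq) hqM hA (Degen.canModel (M * q) p)
  set R₁ : Matrix (Fin (Period.rankH (M * q))) (Fin (Period.rankH M)) ℤ_[p] :=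
    (Degen.degTw 1 (Ihara.dvd_one_mul' M q)).map (Int.castRingHom ℤ_[p]) with hR₁def
  set R₂ := resP M q p with hR₂def
  have hR₁ : ∀ σ, galP p (M * q) σ * R₁ = R₁ * galP p M σ := fun σ =>
    (Degen.degTw_galois (M := M * q) Reps.qbarEmb (MN := galP p M) (MM := galP p (M * q))
      (fun m τ x => Reps.galModel_coord M p m τ x)
      (fun m τ x => Reps.galModel_coord (M * q) p m τ x) 1 (Ihara.dvd_one_mul' M q) σ).symm
  have hR₂ : ∀ σ, galP p (M * q) σ * R₂ = R₂ * galP p M σ := fun σ => (resP_galP σ).symm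
  -- the old part is injective
  set C : Matrix (Fin (Period.rankH (M * q))) (Fin (Period.rankH M) ⊕ Fin (Period.rankH M)) ℤ :=
    Matrix.fromCols (Degen.degTw 1 (Ihara.dvd_one_mul' M q))
      (Degen.degTw q (Ihara.dvd_self_mul' M q)) with hC
  have hCinj : Function.Injective fun v => C *ᵥ v := by
    refine fun v v' h => sub_eq_zero.mp ?_
    have h' : C *ᵥ (v - v') = 0 := by rw [Matrix.mulVec_sub, sub_eq_zero]; exact h
    rw [hC, Matrix.fromCols_mulVec] at h'
    obtain ⟨e1, e2⟩ := Degen.degTw_injective (hq.coprime_iff_not_dvd.mpr hqM) hq.two_le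
      (Ihara.dvd_one_mul' M q) (Ihara.dvd_self_mul' M q) h'
    funext i
    cases i with
    | inl i => exact congrFun e1 i
    | inr i => exact congrFun e2 i
  have hold : ∀ y₁ y₂ : Fin (Period.rankH M) → ℤ_[p], R₁ *ᵥ y₁ + R₂ *ᵥ y₂ = 0 →
      y₁ = 0 ∧ y₂ = 0 := by
    intro y₁ y₂ h
    have hinj := Local.linMap_injective (f := Int.castRingHom ℚ_[p])
      (fun a b h => Int.cast_injective h) hCinj
    have hC' : C.map (Int.castRingHom ℤ_[p]) = Matrix.fromCols R₁ R₂ := by
      rw [hC, hR₁def, hR₂def, resP, ← degTw_eq_degMat_one]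
      ext i j
      cases j <;> simp
    have h0 : C.map (Int.castRingHom ℤ_[p]) *ᵥ Sum.elim y₁ y₂ = 0 := by
      rw [hC', Matrix.fromCols_mulVec]
      exact h
    have h1 : Local.linMap (Int.castRingHom ℚ_[p]) C
        (fun i => ((Sum.elim y₁ y₂ i : ℤ_[p]) : ℚ_[p])) = 0 := by
      funext i
      have h2 := RingHom.map_mulVec (PadicInt.Coe.ringHom (p := p)) (C.map (Int.castRingHom ℤ_[p]))
        (Sum.elim y₁ y₂) i
      rw [h0, Pi.zero_apply, map_zero] at h2
      rw [show (C.map (Int.castRingHom ℤ_[p])).map (PadicInt.Coe.ringHom (p := p)) =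
          C.map (Int.castRingHom ℚ_[p]) from Matrix.ext fun i j => by simp] at h2
      rw [Local.linMap_apply, Pi.zero_apply]
      exact h2.symm
    have h3 := hinj (h1.trans (map_zero _).symm)
    exact ⟨funext fun i => Subtype.ext (congrFun h3 (Sum.inl i)),
      funext fun i => Subtype.ext (congrFun h3 (Sum.inr i))⟩
  let Ψ := ((R₁.mulVecLin.coprod R₂.mulVecLin).coprod B.mulVecLin)
  have hΨ : ∀ y : ((Fin (Period.rankH M) → ℤ_[p]) × (Fin (Period.rankH M) → ℤ_[p])) × _,
      Ψ y = R₁ *ᵥ y.1.1 + R₂ *ᵥ y.1.2 + B *ᵥ y.2 := fun y => rfl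
  have hmem : ∀ y, Ψ y ∈ fixedSub A p (M * q) := by
    intro y
    refine (mem_fixedSub A p).mpr fun τ hτ => ?_
    have h1 : galP p M τ = 1 :=
      (Reps.galModel M p).inertia_trivial q hq hqM (Ne.symm hpq) A hA τ hτ
    have hB : galP p (M * q) τ * B = B := hBfix τ hτ
    rw [hΨ, Matrix.mulVec_add, Matrix.mulVec_add, Matrix.mulVec_mulVec, Matrix.mulVec_mulVec,
      Matrix.mulVec_mulVec, hR₁, hR₂, h1, Matrix.mul_one, Matrix.mul_one, hB]
  have hker : ∀ y, Ψ y = 0 → y = 0 := by
    intro y hy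
    rw [hΨ] at hy
    obtain ⟨φ, hφ⟩ := GalCommon.exists_isFrobeniusAt (A := A) hq hA
    set G := galP p (M * q) φ with hGdef
    have hG : ∀ (R : Matrix (Fin (Period.rankH (M * q))) (Fin (Period.rankH M)) ℤ_[p]),
        G * R = R * galP p M φ → ∀ v, G *ᵥ (G *ᵥ (R *ᵥ v)) =
          R *ᵥ (galP p M φ *ᵥ (galP p M φ *ᵥ v)) := fun R hR v => by
      have h1 : ∀ u, G *ᵥ (R *ᵥ u) = R *ᵥ (galP p M φ *ᵥ u) := fun u => by
        rw [Matrix.mulVec_mulVec, hR, ← Matrix.mulVec_mulVec]
      rw [h1, h1]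
    have hGB : G *ᵥ (G *ᵥ (B *ᵥ y.2)) = (q ^ 2 : ℕ) • (B *ᵥ y.2) := by
      rw [Matrix.mulVec_mulVec, Matrix.mulVec_mulVec, hGdef, Matrix.mul_assoc]
      rw [show galP p (M * q) φ * (galP p (M * q) φ * B) = (q ^ 2 : ℕ) • B from hBF φ hφ,
        Matrix.smul_mulVec]
    have h2 := congrArg (fun v => G *ᵥ (G *ᵥ v)) hy
    simp only [Matrix.mulVec_add, Matrix.mulVec_zero, hG R₁ (hR₁ φ), hG R₂ (hR₂ φ), hGB] at h2
    have h3 := congrArg (fun v => (q ^ 2 : ℕ) • v) hy
    simp only [smul_add, smul_zero, ← Matrix.mulVec_smul] at h3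
    rw [← h3, ← Matrix.mulVec_smul B, add_left_inj, ← sub_eq_zero, add_sub_add_comm,
      ← Matrix.mulVec_sub, ← Matrix.mulVec_sub] at h2
    obtain ⟨e1, e2⟩ := hold _ _ h2
    have hzero : ∀ v : Fin (Period.rankH M) → ℤ_[p],
        galP p M φ *ᵥ (galP p M φ *ᵥ v) - (q ^ 2 : ℕ) • v = 0 → v = 0 := by
      intro v hv
      let f : ℤ_[p] →+* ℚ_[p] := PadicInt.Coe.ringHom
      have hu : (fun i => f (v i)) = 0 := by
        refine Local.frobenius_sq_ne_q f (Reps.galModel M p) hq hqM (Ne.symm hpq) hA hφ ?_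
        have e : ∀ u : Fin (Reps.galModel M p).r → ℤ_[p],
            Local.galRep f (Reps.galModel M p) φ (fun i => f (u i)) =
              fun i => f (((Reps.galModel M p).M φ *ᵥ u) i) := fun u => by
          funext i
          rw [Local.galRep_apply, Local.linMap_apply]
          exact (RingHom.map_mulVec f _ u i).symm
        refine (congrArg (Local.galRep f (Reps.galModel M p) φ) (e v)).trans ((e _).trans ?_)
        funext i
        show f ((galP p M φ *ᵥ (galP p M φ *ᵥ v)) i) = (q : ℚ_[p]) ^ 2 * f (v i)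
        rw [sub_eq_zero.mp hv, Pi.smul_apply, nsmul_eq_mul, map_mul, map_natCast, Nat.cast_pow]
      exact funext fun i => Subtype.ext (congrFun hu i)
    have hy1 := hzero _ e1
    have hy2 := hzero _ e2
    rw [hy1, hy2, Matrix.mulVec_zero, Matrix.mulVec_zero, add_zero, zero_add] at hy
    exact Prod.ext (Prod.ext hy1 hy2) (hBinj (hy.trans (Matrix.mulVec_zero B).symm))
  have hinj : Function.Injective (Ψ.codRestrict _ hmem) := by
    rw [injective_iff_map_eq_zero]
    exact fun y hy => hker y (congrArg Subtype.val hy)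
  refine le_trans (le_of_eq ?_) (LinearMap.finrank_le_finrank_of_injective hinj)
  rw [Module.finrank_prod, Module.finrank_prod, Module.finrank_fin_fun, Module.finrank_fin_fun,
    two_mul]

/-- The torsion classes lifting to fixed lattice vectors. -/
def fixedVec (N : ℕ) [NeZero N] (m : ℕ) : AddSubgroup (Reps.tors N (p ^ m)) :=
  haveI : NeZero (p ^ m) := ⟨pow_ne_zero _ (Fact.out : p.Prime).ne_zero⟩
  ((fixedSub A p N).toAddSubgroup.map (redVec p (Period.rankH N) m)).comap
    (Reps.coordTors N (p ^ m)).toAddMonoidHom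

theorem mem_fixedVec {N : ℕ} [NeZero N] {m : ℕ} [NeZero (p ^ m)] {z : Reps.tors N (p ^ m)} :
    z ∈ fixedVec A p N m ↔ ∃ w : Fin (Period.rankH N) → ℤ_[p],
      (∀ τ ∈ A.inertiaSubgroupIn ℚ, galP p N τ *ᵥ w = w) ∧
        Reps.coordTors N (p ^ m) z = fun i => PadicInt.toZModPow m (w i) := by
  constructor
  · rintro ⟨w, hw, he⟩
    exact ⟨w, (mem_fixedSub A p).mp hw, he.symm⟩
  · rintro ⟨w, hw, he⟩
    exact ⟨w, (mem_fixedSub A p).mpr hw, he.symm⟩

/-- A lower bound for the classes lifting to fixed vectors. -/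
theorem card_fixedVec_ge (hpq : p ≠ q) (hqM : ¬ q ∣ M) (hA : A.LiesOverPrime q) (m : ℕ) :
    p ^ ((2 * Period.rankH M + (genusFF Qb (modularFunctionFieldBar (M * q)) -
        2 * genusFF Qb (modularFunctionFieldBar M))) * m) ≤
      Nat.card (fixedVec A p (M * q) m) := by
  haveI : NeZero (p ^ m) := ⟨pow_ne_zero _ (Fact.out : p.Prime).ne_zero⟩
  refine (card_map_redVec_ge p (fixedSub A p (M * q))
    (fun c w hc h => fixedSub_saturated A p hc h) (finrank_fixedSub_ge A p hpq hqM hA) m).trans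
    (le_of_eq (Nat.card_congr (Equiv.subtypeEquiv
      (Reps.coordTors (M * q) (p ^ m)).toEquiv ?_)).symm)
  exact fun z => Iff.rfl

end FLTAgent.BadOdd
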