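import Fermat.Agent.LowerQ.HeckeRing
import Fermat.Agent.Reduction.InputsMain
import Fermat.Agent.BadQ.Toric

/-!
# Torsion of the special fibre at a place of good reduction

For `q ∤ M` and a valuation ring over `q`, every place of the special fibre of `X₀(M)` is the
reduction of a place (`redMap_surjective`), so reduction is surjective on divisor classes
(`reductionModL_surjective`). As `p`-torsion classes lift to `p`-torsion classes for `p ≠ q`, the
`p`-torsion of the special fibre is finite of order at most `p ^ (2 g)`
(`card_torsion_residue_prime_le`).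
-/

set_option autoImplicit false
set_option linter.style.haveILetI false
set_option linter.unusedSectionVars false
set_option synthInstance.maxHeartbeats 400000
set_option maxHeartbeats 1600000

noncomputable section

open ModularCurve AlgebraicCurve

namespace FLTAgent.BadOdd

open FLTAgent.Reduction

section General

variable {K k F Fb : Type*} [Field K] [Field k] [Field F] [Field Fb] [Algebra K F] [Algebra k Fb]
  [IsAlgClosed K] [IsAlgClosed k] {A : ValuationSubring K} {π : A →+* k} {G : GaussRed A π F Fb}
  {g : ℕ} {x : F}

/-- Every place of the special fibre is the reduction of a place. -/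
theorem redMap_surjective (hx : GoodParam G g x) : Function.Surjective (redMap hx) := by
  classical
  have key : ∀ {y : F} (hy : GoodParam G g y) (Q : Place k Fb), 0 ≤ Q.ord (G.red y) →
      Q ∈ Set.range (redMap hy) := by
    intro y hy Q hQ
    obtain ⟨s, hs, hs1, -⟩ := hy.exists_uniformizer hQ
    have hne : G.red s ≠ 0 := fun h => by
      rw [h, Place.ord_zero] at hs1
      exact zero_ne_one hs1
    by_contra hn
    have h1 := hy.isRed.ord_eq s hs hne Q
    rw [hs1, Finsupp.mapDomain_of_notMem_range _ _ hn] at h1
    exact one_ne_zero h1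
  intro Q
  rcases le_or_gt 0 (Q.ord (G.red x)) with hQ | hQ
  · exact key hx Q hQ
  · obtain ⟨P, hP⟩ := key hx.inv Q (by
      rw [G.red_inv hx.mem hx.red_ne_zero, Place.ord_inv]; omega)
    exact ⟨P, by rw [hx.isRed.unique hx.inv.isRed]; exact hP⟩

end General

local notation "Qb" => AlgebraicClosure ℚ

variable (A : ValuationSubring Qb) (M : ℕ) [NeZero M] {q : ℕ} [Fact q.Prime]

local notation "kA" => IsLocalRing.ResidueField A
local notation "E0" => modularFunctionFieldFullC kA M

/-- Every class of the special fibre is the reduction of a class. -/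
theorem reductionModL_surjective (hA : A.LiesOverPrime q) (hqM : ¬ q ∣ M) :
    Function.Surjective (reductionModL A M) := by
  classical
  have hq : q.Prime := Fact.out
  haveI := GalCommon.isAlgClosed_residueField A hq hA
  haveI := Kronecker.isFF_bar M
  have h := Kronecker.reductionInputs M hq hqM hA
  have hx := goodParam_of_genus A M hA hqM (genusFF_fullC_eq M A hA hqM)
  have hr := isRed_of_isPlaceReductionModL M A hA hqM (isPlaceReductionModL_placeReductionModL h)
  have hsurj : Function.Surjective (placeReductionModL h) := by
    rw [hr.unique hx.isRed]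
    exact redMap_surjective hx
  intro y
  obtain ⟨c, rfl⟩ := Pic0.mk_surjective y
  obtain ⟨D, hD⟩ := Finsupp.mapDomain_surjective hsurj (c : Divisor kA E0)
  have hD0 : D ∈ Divisor.degZero (K := Qb) (F := modularFunctionFieldBar M) := by
    rw [Divisor.mem_degZero, ← hr.degree_mapDomain D, hD]
    exact Divisor.mem_degZero.mp c.2
  refine ⟨Pic0.mk ⟨D, hD0⟩, ?_⟩
  rw [reductionModL_mk h]
  exact congrArg Pic0.mk (Subtype.ext hD)

/-- The `p`-torsion of the special fibre. -/
theorem card_torsion_residue_prime_le {p : ℕ} [Fact p.Prime] (hpq : p ≠ q)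
    (hA : A.LiesOverPrime q) (hqM : ¬ q ∣ M) :
    Finite (Pic0.torsion kA E0 p) ∧ Nat.card (Pic0.torsion kA E0 p) ≤
      p ^ (2 * genusFF Qb (modularFunctionFieldBar M)) := by
  classical
  have hp : p.Prime := Fact.out
  haveI : NeZero p := ⟨hp.ne_zero⟩
  haveI := Torsion.jTorsion_finite (N := M) p
  let f : Pic0.torsion Qb (modularFunctionFieldBar M) p → Pic0.torsion kA E0 p := fun z =>
    ⟨reductionModL A M (z : JZero M), by
      rw [Pic0.mem_torsion]
      exact (map_zsmul _ _ _).symm.trans ((congrArg _ (Pic0.mem_torsion.mp z.2)).trans (map_zero _))⟩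
  have hf : Function.Surjective f := by
    rintro ⟨c, hc⟩
    obtain ⟨y, rfl⟩ := reductionModL_surjective A M hA hqM c
    rw [Pic0.mem_torsion, natCast_zsmul] at hc
    obtain ⟨z, hz, hzy⟩ := LowerQ.exists_torsion_lift hqM hA hpq y ((map_nsmul _ _ _).trans hc)
    refine ⟨⟨z, by rw [Pic0.mem_torsion, natCast_zsmul]; exact hz⟩, Subtype.ext hzy⟩
  refine ⟨Finite.of_surjective f hf, (Nat.card_le_card_of_surjective f hf).trans_eq ?_⟩
  rw [Torsion.natCard_jTorsion p _ (ModularPlaces.genusFF_bar M)]

end FLTAgent.BadOdd
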