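import Fermat.Agent.BadOdd.Eisenstein
import Fermat.Agent.BadOdd.FixedRank
import Fermat.Agent.BadOdd.RedTorsion
import Fermat.Agent.Local.Bound

/-!
# Fixed lifts of fixed torsion, up to `T_ℓ - ℓ - 1`

Assuming `DvdOrdRed`, the `p ^ m`-torsion classes lifting to lattice vectors fixed by inertia at `q`
are exactly `kerPhi` (`fixedVec_eq_kerPhi`): one inclusion uses that `eisOp = T_ℓ - ℓ - 1` has
non-zero determinant, the other follows by comparing orders with `card_fixedVec_ge`. Consequently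
`T_ℓ - ℓ - 1` sends torsion fixed by inertia to reductions of lattice vectors fixed by inertia
(`exists_fixed_lift_eisOp`).
-/

set_option autoImplicit false
set_option linter.style.haveILetI false
set_option linter.unusedSectionVars false
set_option maxHeartbeats 1600000
set_option synthInstance.maxHeartbeats 400000

noncomputable section

open ModularCurve AlgebraicCurve Matrix

namespace FLTAgent.BadOdd

local notation "Qb" => AlgebraicClosure ℚ
local notation "Γℚ" => (AlgebraicClosure ℚ ≃ₐ[ℚ] AlgebraicClosure ℚ)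

section Level

variable (N : ℕ) [NeZero N]

/-- The Eisenstein operator `T_ℓ - ℓ - 1`. -/
def eisOp {ℓ : ℕ} (hℓ : ℓ.Prime) (hℓN : ¬ ℓ ∣ N) : Reps.TZ N :=
  Reps.heckeTOf hℓ hℓN - (((ℓ : ℤ) + 1 : ℤ) : Reps.TZ N)

theorem det_eisOp_ne_zero {ℓ : ℕ} (hℓ : ℓ.Prime) (hℓN : ¬ ℓ ∣ N) :
    (HeckeH.heckeMatHom N (eisOp N hℓ hℓN)).det ≠ 0 := by
  rw [eisOp, map_sub, map_intCast]
  exact Local.det_heckeT_sub_ne_zero hℓ hℓN (HeckeH.heckeMatHom N) (HeckeH.heckeMatHom_injective N)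
    (abs_of_nonneg (by positivity))

variable {N}

/-- `T_ℓ - ℓ - 1` on classes. -/
def eisClass {ℓ : ℕ} (hℓ : ℓ.Prime) {n : ℕ} (x : Reps.tors N n) : Reps.tors N n :=
  ⟨heckeOperatorBar N ⟨ℓ, hℓ⟩ (x : JZero N) - ((ℓ : ℤ) + 1) • (x : JZero N),
    AddSubgroup.sub_mem _ (HeckeH.heckeOperatorBar_mem_torsion N ⟨ℓ, hℓ⟩ x.2)
      (AddSubgroup.zsmul_mem _ x.2 _)⟩

theorem coordTors_eisClass {ℓ : ℕ} (hℓ : ℓ.Prime) (hℓN : ¬ ℓ ∣ N) {n : ℕ} [NeZero n]
    (x : Reps.tors N n) :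
    Reps.coordTors N n (eisClass hℓ x) =
      (Int.castRingHom (ZMod n)).mapMatrix (HeckeH.heckeMatHom N (eisOp N hℓ hℓN)) *ᵥ
        Reps.coordTors N n x := by
  have e : eisClass hℓ x = ⟨heckeOperatorBar N ⟨ℓ, hℓ⟩ (x : JZero N),
      HeckeH.heckeOperatorBar_mem_torsion N ⟨ℓ, hℓ⟩ x.2⟩ - ((ℓ : ℤ) + 1) • x := Subtype.ext rfl
  rw [e, map_sub, map_zsmul, Reps.coordTors_hecke, Reps.heckeGenOf_T N hℓ hℓN, eisOp, map_sub,
    map_intCast, map_sub, map_intCast, Matrix.sub_mulVec]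
  congr 1
  funext i
  rw [Matrix.intCast_mulVec]
  simp

theorem coordTors_pow_nsmul {p : ℕ} [Fact p.Prime] {m c : ℕ} (z' : Reps.tors N (p ^ (m + c)))
    (hz : p ^ c • (z' : JZero N) ∈ Reps.tors N (p ^ m)) :
    haveI : NeZero (p ^ m) := ⟨pow_ne_zero _ (Fact.out : p.Prime).ne_zero⟩
    haveI : NeZero (p ^ (m + c)) := ⟨pow_ne_zero _ (Fact.out : p.Prime).ne_zero⟩
    Reps.coordTors N (p ^ m) ⟨p ^ c • (z' : JZero N), hz⟩ = fun i =>
      ZMod.castHom (pow_dvd_pow p (Nat.le_add_right m c)) (ZMod (p ^ m))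
        (Reps.coordTors N (p ^ (m + c)) z' i) := by
  have gen : ∀ (k n n' : ℕ) [NeZero k] [NeZero n] [NeZero n'] (h : n' = k * n)
      (x : Reps.tors N n') (hx : k • (x : JZero N) ∈ Reps.tors N n) (hd : n ∣ n'),
      Reps.coordTors N n ⟨k • (x : JZero N), hx⟩ =
        fun i => ZMod.castHom hd (ZMod n) (Reps.coordTors N n' x i) := by
    intro k n n' _ _ _ h x hx hd
    subst h
    exact Reps.coordTors_nsmul N x hx
  haveI : NeZero (p ^ c) := ⟨pow_ne_zero _ (Fact.out : p.Prime).ne_zero⟩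
  exact gen (p ^ c) (p ^ m) (p ^ (m + c)) (by rw [← pow_add, add_comm]) z' hz _

end Level

variable (A : ValuationSubring Qb) (p : ℕ) [Fact p.Prime] {M q : ℕ} [NeZero M] [Fact q.Prime]

theorem castHom_toZModPow {a b : ℕ} (h : a ≤ b) (x : ℤ_[p]) :
    ZMod.castHom (pow_dvd_pow p h) (ZMod (p ^ a)) (PadicInt.toZModPow b x) =
      PadicInt.toZModPow a x :=
  RingHom.congr_fun (PadicInt.zmod_cast_comp_toZModPow a b h) x

theorem smul_eq_self_of_fixed {N : ℕ} [NeZero N] {m : ℕ} [NeZero (p ^ m)] {τ : Γℚ}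
    {x : Reps.tors N (p ^ m)}
    (h : (PadicInt.toZModPow m).mapMatrix (galP p N τ) *ᵥ Reps.coordTors N (p ^ m) x =
      Reps.coordTors N (p ^ m) x) : τ • (x : JZero N) = x := by
  rw [galP_coord] at h
  exact congrArg Subtype.val ((Reps.coordTors N (p ^ m)).injective h)

variable (hpq : p ≠ q) (hqM : ¬ q ∣ M) (hA : A.LiesOverPrime q)

include hpq hqM hA in
/-- The classes lifting to fixed vectors are exactly `kerPhi`. -/
theorem fixedVec_eq_kerPhi {ℓ : ℕ} (hℓ : ℓ.Prime) (hℓN : ¬ ℓ ∣ M * q)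
    (hdvd : ∀ n : ℕ, ¬ q ∣ n → DvdOrdRed A (Fact.out : q.Prime) hqM hA n) (m : ℕ) :
    fixedVec A p (M * q) m = (dat A (Fact.out : q.Prime) hqM hA).kerPhi (p ^ m) := by
  classical
  have hq : q.Prime := Fact.out
  have hp : p.Prime := Fact.out
  haveI := GalCommon.isAlgClosed_residueField A hq hA
  haveI : ∀ j : ℕ, NeZero (p ^ j) := fun j => ⟨pow_ne_zero _ hp.ne_zero⟩
  set D := dat A hq hqM hA with hD
  set B := HeckeH.heckeMatHom (M * q) (eisOp (M * q) hℓ hℓN) with hB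
  have hC : B.det ≠ 0 := det_eisOp_ne_zero (M * q) hℓ hℓN
  obtain ⟨c, u, hu, hcu⟩ := Nat.exists_eq_pow_mul_and_not_dvd (Int.natAbs_ne_zero.mpr hC) p hp.ne_one
  have hle : fixedVec A p (M * q) m ≤ D.kerPhi (p ^ m) := by
    intro z hz
    obtain ⟨w, hw, hzw⟩ := (mem_fixedVec A p).mp hz
    let f := Int.castRingHom ℤ_[p]
    set Bp := f.mapMatrix B with hBp
    set Sp := f.mapMatrix B.adjugate with hSp
    have hBS : Bp * Sp = ((B.det : ℤ) : ℤ_[p]) • 1 := by
      rw [hBp, hSp, ← map_mul, Matrix.mul_adjugate]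
      rw [map_zsmul, map_one, Int.cast_smul_eq_zsmul]
    have hSB : Sp * Bp = ((B.det : ℤ) : ℤ_[p]) • 1 := by
      rw [hBp, hSp, ← map_mul, Matrix.adjugate_mul]
      rw [map_zsmul, map_one, Int.cast_smul_eq_zsmul]
    have hdet : ((B.det : ℤ) : ℤ_[p]) ≠ 0 := Int.cast_ne_zero.mpr hC
    have hBw : Bp *ᵥ (Sp *ᵥ w) = ((B.det : ℤ) : ℤ_[p]) • w := by
      rw [Matrix.mulVec_mulVec, hBS, Matrix.smul_mulVec, Matrix.one_mulVec]
    have hw' : ∀ τ ∈ A.inertiaSubgroupIn ℚ, galP p (M * q) τ *ᵥ (Sp *ᵥ w) = Sp *ᵥ w := by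
      intro τ hτ
      have hc : Commute (galP p (M * q) τ) Bp :=
        (Reps.galModel (M * q) p).commute_hecke τ (eisOp (M * q) hℓ hℓN)
      have h2 : Bp *ᵥ (galP p (M * q) τ *ᵥ (Sp *ᵥ w)) = Bp *ᵥ (Sp *ᵥ w) := by
        rw [Matrix.mulVec_mulVec, ← hc.eq, ← Matrix.mulVec_mulVec, hBw, Matrix.mulVec_smul,
          hw τ hτ]
      have hSBv : ∀ v, Sp *ᵥ (Bp *ᵥ v) = ((B.det : ℤ) : ℤ_[p]) • v := fun v => by
        rw [Matrix.mulVec_mulVec, hSB, Matrix.smul_mulVec, Matrix.one_mulVec]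
      have h3 := congrArg (Sp *ᵥ ·) h2
      simp only [hSBv] at h3
      exact smul_right_injective _ hdet h3
    -- the class of the adjugate translate, one level up
    let x' : Reps.tors (M * q) (p ^ (m + c)) :=
      (Reps.coordTors (M * q) (p ^ (m + c))).symm (redVec p _ (m + c) (Sp *ᵥ w))
    let z' : Reps.tors (M * q) (p ^ (m + c)) :=
      (Reps.coordTors (M * q) (p ^ (m + c))).symm (redVec p _ (m + c) w)
    have hx'fix : ∀ σ ∈ A.inertiaSubgroupIn ℚ, σ • (x' : JZero (M * q)) = x' := fun σ hσ => by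
      refine smul_eq_self_of_fixed p ?_
      rw [AddEquiv.apply_symm_apply]
      funext i
      rw [RingHom.mapMatrix_apply, redVec_apply]
      refine (Eq.trans ?_ (congrArg (PadicInt.toZModPow (p := p) (m + c)) (congrFun (hw' σ hσ) i)))
      exact (RingHom.map_mulVec _ _ _ i).symm
    have hk := mem_kerPhi_of_fixed A hq hqM hA (hdvd (p ^ (m + c))
      fun h => hpq ((Nat.prime_dvd_prime_iff_eq hq hp).mp (hq.dvd_of_dvd_pow h)).symm)
      hℓ hℓN x'.2 hx'fix (eisClass hℓ x') rfl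
    have hcoord : eisClass hℓ x' = (B.det) • z' := by
      refine (Reps.coordTors (M * q) (p ^ (m + c))).injective ?_
      rw [coordTors_eisClass hℓ hℓN, map_zsmul, AddEquiv.apply_symm_apply, AddEquiv.apply_symm_apply]
      funext i
      rw [RingHom.mapMatrix_apply]
      have h1 := congrArg (PadicInt.toZModPow (p := p) (m + c)) (congrFun hBw i)
      rw [RingHom.map_mulVec, hBp, RingHom.mapMatrix_apply, Matrix.map_map, Pi.smul_apply,
        smul_eq_mul, map_mul, map_intCast, ← RingHom.coe_comp, RingHom.ext_int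
          ((PadicInt.toZModPow (p := p) (m + c)).comp f) (Int.castRingHom _)] at h1
      refine Eq.trans ?_ (h1.trans ?_)
      · rfl
      · rw [Pi.smul_apply, zsmul_eq_mul, redVec_apply]
    have hnat : (p ^ c * u) • z' ∈ D.kerPhi (p ^ (m + c)) := by
      rw [← hcu]
      rcases Int.natAbs_eq B.det with he | he
      · rw [← natCast_zsmul, ← he, ← hcoord]
        exact hk
      · rw [← natCast_zsmul, show ((B.det.natAbs : ℕ) : ℤ) = -B.det by omega, neg_zsmul, ← hcoord]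
        exact AddSubgroup.neg_mem _ hk
    have hzmem : p ^ c • (z' : JZero (M * q)) ∈ Reps.tors (M * q) (p ^ m) := by
      have h := Pic0.mem_torsion.mp z'.2
      rw [natCast_zsmul] at h
      rw [Pic0.mem_torsion, natCast_zsmul, smul_smul, ← pow_add]
      exact h
    have hzz : z = ⟨p ^ c • (z' : JZero (M * q)), hzmem⟩ := by
      refine (Reps.coordTors (M * q) (p ^ m)).injective ?_
      rw [hzw, coordTors_pow_nsmul z' hzmem]
      funext i
      rw [AddEquiv.apply_symm_apply, redVec_apply, castHom_toZModPow p (Nat.le_add_right m c)]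
    exact Lift.Data.kerPhi_of_nsmul hu z'.2 (w := ⟨(p ^ c * u) • z', hnat⟩)
      (AddSubgroupClass.coe_nsmul z' (p ^ c * u)) (congrArg Subtype.val hzz)
  obtain ⟨hfinE, hcardE⟩ := card_torsion_residue_prime_le A M hpq hA hqM
  haveI := hfinE
  haveI hfin : ∀ j, Finite (Pic0.torsion Qb (modularFunctionFieldBar (M * q)) (p ^ j)) :=
    fun j => Torsion.jTorsion_finite (N := M * q) (p ^ j)
  haveI := hfin m
  have hpk : (p : IsLocalRing.ResidueField A) ≠ 0 := by
    simpa using natCast_pow_ne_zero A hq hA hpq 1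
  have hub := Lift.Data.card_kerPhi_le (D := D) hpk (one_le_nX A hq hqM hA) hcardE hfin m
  have hlb := card_fixedVec_ge A p hpq hqM hA m
  have hgenus := Lift.Data.genus_eq (D := D)
  have hnX := one_le_nX A hq hqM hA
  have h2g := BadQ.two_mul_genusFF_bar M
  have hexp : 4 * genusFF Qb (modularFunctionFieldBar M) + (D.nX - 1) =
      2 * Period.rankH M + (genusFF Qb (modularFunctionFieldBar (M * q)) -
        2 * genusFF Qb (modularFunctionFieldBar M)) := by
    rw [← hD] at hnX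
    omega
  rw [hexp] at hub
  exact SetLike.coe_injective (Set.Finite.eq_of_subset_of_card_le (Set.toFinite _) hle
    (hub.trans hlb))

include hpq hqM hA in
/-- Fixed torsion, after `T_ℓ - ℓ - 1`, lifts to fixed lattice vectors. -/
theorem exists_fixed_lift_eisOp {ℓ : ℕ} (hℓ : ℓ.Prime) (hℓN : ¬ ℓ ∣ M * q)
    (hdvd : ∀ n : ℕ, ¬ q ∣ n → DvdOrdRed A (Fact.out : q.Prime) hqM hA n) (m : ℕ)
    (x : Fin (Period.rankH (M * q)) → ZMod (p ^ m))
    (hfix : ∀ τ ∈ A.inertiaSubgroupIn ℚ,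
      (PadicInt.toZModPow m).mapMatrix (galP p (M * q) τ) *ᵥ x = x) :
    ∃ w : Fin (Period.rankH (M * q)) → ℤ_[p],
      (∀ τ ∈ A.inertiaSubgroupIn ℚ, galP p (M * q) τ *ᵥ w = w) ∧
        (fun i => PadicInt.toZModPow m (w i)) = (Int.castRingHom (ZMod (p ^ m))).mapMatrix
          (HeckeH.heckeMatHom (M * q) (eisOp (M * q) hℓ hℓN)) *ᵥ x := by
  have hp : p.Prime := Fact.out
  haveI : NeZero (p ^ m) := ⟨pow_ne_zero _ hp.ne_zero⟩
  have hq : q.Prime := Fact.out
  obtain ⟨z, rfl⟩ := (Reps.coordTors (M * q) (p ^ m)).surjective x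
  have hk := mem_kerPhi_of_fixed A hq hqM hA (hdvd (p ^ m)
    fun h => hpq ((Nat.prime_dvd_prime_iff_eq hq hp).mp (hq.dvd_of_dvd_pow h)).symm)
    hℓ hℓN z.2 (fun σ hσ => smul_eq_self_of_fixed p (hfix σ hσ)) (eisClass hℓ z) rfl
  rw [← fixedVec_eq_kerPhi A p hpq hqM hA hℓ hℓN hdvd m, mem_fixedVec] at hk
  obtain ⟨w, hw, he⟩ := hk
  exact ⟨w, hw, by rw [← he, coordTors_eisClass hℓ hℓN]⟩

end FLTAgent.BadOdd
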