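import Fermat.Agent.Mod2.Fricke
import Fermat.Agent.Ihara.Degeneracy
import Fermat.Agent.LowerQ.Defs
import Fermat.Agent.Degen.Twist
import Fermat.Agent.Reps.Tate

/-!
# The Atkin–Lehner involution at `q` on torsion points

Under `Torsion.jTorsionEquiv`, which identifies the `n`-torsion of `J₀(Mq)` with characters of
`Γ₀(Mq)` modulo `n`, the involution `wAut` at `q` becomes `Ihara.thetaH` (`jTorsionEquiv_wAut`).
The proof realises the involution on functions as `f ↦ f ∘ W` (`ev_atkinLehner`) and translates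
multiplicative functions and their divisors by `W` (`isMult_translateW`).
`wH_thetaH` shows that it commutes with the Fricke involution on characters.
-/

set_option autoImplicit false
set_option linter.style.haveILetI false
set_option linter.unusedSectionVars false
set_option maxHeartbeats 1000000
set_option synthInstance.maxHeartbeats 400000

noncomputable section

open UpperHalfPlane ModularCurve AlgebraicCurve CongruenceSubgroup Filter
open scoped MatrixGroups

namespace FLTAgent.BadOdd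

open FLTAgent.Modular
open FLTAgent.HeckeH (M2 matOf glM HasGrowth GrowsAtCusps cuspHom hasQExp_cuspHom cuspSer_eq)
open FLTAgent.Kronecker (jSeries swapIdx)
open FLTAgent.ModularCosets (DivIdx triSmul)
open FLTAgent.BadQ (jAt atkinLehner atkinLehner_jAt swapIdx_dvd)
open FLTAgent.LowerQ (wAut wAut_smul)
open FLTAgent.Degen (dMat)
open SemilinearAut (degZeroSMulHom coe_degZeroSMulHom pic0_smul_mk)

local notation "Qb" => AlgebraicClosure ℚ

variable {M q : ℕ} [NeZero M] [Fact q.Prime] (hqM : ¬ q ∣ M)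

/-- The matrix `W = ω diag (q, 1)` of the involution at `q`. -/
def matW : M2 := matOf (Ihara.omegaL hqM) * dMat q

theorem det_matW : (matW hqM).det = q := by
  rw [matW, Matrix.det_mul, HeckeH.det_matOf, one_mul, dMat, Matrix.det_fin_two_of]
  simp

theorem det_matW_ne : (matW hqM).det ≠ 0 := by
  rw [det_matW]; exact_mod_cast (Fact.out : q.Prime).ne_zero

theorem det_matW_pos : 0 < (matW hqM).det := by
  rw [det_matW]; exact_mod_cast (Fact.out : q.Prime).pos

theorem glM_matOf_smul {N : ℕ} (γ : Gamma0 N) (h : (matOf γ).det ≠ 0) (z : ℍ) :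
    glM (matOf γ) h • z = (γ : SL(2, ℤ)) • z :=
  HeckeH.glM_SL (γ : SL(2, ℤ)) h z

theorem coe_gamma0_smul {N : ℕ} (γ : Gamma0 N) (z : ℍ) :
    (((γ : SL(2, ℤ)) • z : ℍ) : ℂ) =
      ((matOf γ 0 0 : ℂ) * z + (matOf γ 0 1 : ℂ)) / ((matOf γ 1 0 : ℂ) * z + (matOf γ 1 1 : ℂ)) := by
  have h : (matOf γ).det ≠ 0 := by rw [HeckeH.det_matOf]; exact one_ne_zero
  rw [← glM_matOf_smul γ h, Mod2.coe_glM_smul h (by rw [HeckeH.det_matOf]; exact one_pos)]

/-- `diag (d, 1)` moves past an element of `Γ₀(N)` with `d ∣ N`. -/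
theorem diag_smul_gamma {N : ℕ} (d : ℕ) [NeZero d] (hd : 1 * d ∣ N) (γ : Gamma0 N) (z : ℍ) :
    ModularForm.heckeDiagMatrix d • ((γ : SL(2, ℤ)) • z) =
      ((Degen.degHom d hd γ : Gamma0 1) : SL(2, ℤ)) • (ModularForm.heckeDiagMatrix d • z) :=
  ((mul_smul (ModularForm.heckeDiagMatrix d)
      (Matrix.SpecialLinearGroup.mapGL ℝ (γ : SL(2, ℤ))) z).symm.trans
    (congrArg (· • z) (Degen.heckeDiag_mul_mapGL d hd γ))).trans (mul_smul _ _ _)

theorem denom_omegaR_ne (w : ℍ) : ((M : ℕ) : ℂ) * (w : ℂ) + (Ihara.atT M q : ℂ) ≠ 0 := by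
  intro h
  have := congrArg Complex.im h
  simp at this
  rcases this with h0 | h0
  · exact NeZero.ne M h0
  · exact absurd h0 w.im_pos.ne'

theorem swapIdx_ne_zero (d : DivIdx (M * q)) : swapIdx q (d : ℕ) ≠ 0 := fun h => by
  have := swapIdx_dvd M q Fact.out d.dvd
  rw [h, zero_dvd_iff] at this
  exact NeZero.ne (M * q) this

/-- `j (d ω z) = j (d' z / q)` with `d'` the exchanged index. -/
theorem jMulFun_omega (d : DivIdx (M * q)) [NeZero (swapIdx q (d : ℕ))] (z : ℍ) :
    jMulFun (d : ℕ) ((Ihara.omegaL hqM : SL(2, ℤ)) • z) =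
      jFun (triSmul (swapIdx q (d : ℕ)) 0 q z) := by
  have hq0 : (q : ℂ) ≠ 0 := Nat.cast_ne_zero.mpr (Fact.out : q.Prime).ne_zero
  unfold jMulFun
  by_cases hqd : q ∣ (d : ℕ)
  · obtain ⟨c, hc⟩ := hqd
    haveI : NeZero c := ⟨fun h => NeZero.ne (d : ℕ) (by rw [hc, h, mul_zero])⟩
    have hcM : 1 * c ∣ M := by
      rw [one_mul]
      refine Nat.dvd_of_mul_dvd_mul_left (Fact.out : q.Prime).pos ?_
      rw [← hc, mul_comm q M]
      exact d.dvd
    have hs : swapIdx q (d : ℕ) = c := by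
      rw [hc, mul_comm q c, Kronecker.swapIdx_mul (Fact.out : q.Prime).pos]
    have e1 : ModularForm.heckeDiagMatrix (d : ℕ) • ((Ihara.omegaL hqM : SL(2, ℤ)) • z) =
        ModularForm.heckeDiagMatrix c •
          ((Ihara.omegaR hqM : SL(2, ℤ)) • triSmul 1 0 q z) := by
      refine UpperHalfPlane.ext ?_
      have hne := denom_omegaR_ne (M := M) (q := q) (triSmul 1 0 q z)
      rw [ModularCosets.coe_triSmul] at hne
      rw [ModularForm.coe_heckeDiagMatrix_smul (NeZero.ne _),
        ModularForm.coe_heckeDiagMatrix_smul (NeZero.ne _), coe_gamma0_smul, coe_gamma0_smul,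
        ModularCosets.coe_triSmul, Ihara.omegaL, Ihara.omegaR, HeckeH.matOf_mkGamma0,
        HeckeH.matOf_mkGamma0, hc]
      push_cast at hne ⊢
      simp only [Matrix.cons_val', Matrix.cons_val_zero, Matrix.cons_val_one, Matrix.of_apply,
        Matrix.empty_val', Matrix.cons_val_fin_one, Int.cast_one, Int.cast_mul, Int.cast_natCast,
        one_mul, add_zero] at hne ⊢
      field_simp
    rw [e1, diag_smul_gamma c hcM, jFun_smul]
    congr 1
    refine UpperHalfPlane.ext ?_
    rw [ModularForm.coe_heckeDiagMatrix_smul (NeZero.ne _), ModularCosets.coe_triSmul,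
      ModularCosets.coe_triSmul, hs]
    push_cast
    ring
  · have hdM : 1 * (d : ℕ) ∣ M := by
      rw [one_mul]
      exact (((Fact.out : q.Prime).coprime_iff_not_dvd.mpr hqd).symm).dvd_of_dvd_mul_right d.dvd
    rw [diag_smul_gamma (d : ℕ) hdM, jFun_smul]
    congr 1
    refine UpperHalfPlane.ext ?_
    rw [ModularForm.coe_heckeDiagMatrix_smul (NeZero.ne _), ModularCosets.coe_triSmul]
    simp only [swapIdx, if_neg hqd]
    push_cast
    field_simp
    ring

variable (ι : Qb →+* ℂ)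

/-- The expansion at the cusp of `ω`, in `exp (2πi z / M q)`. -/
def cuspOmega : modularFunctionFieldBar (M * q) →+* LaurentSeries ℂ :=
  (cuspHom (M := M * q) (Ihara.omegaL hqM : SL(2, ℤ))).toRingHom.comp (Torsion.embFC (M * q) ι)

theorem cuspOmega_algebraMap (c : Qb) :
    cuspOmega hqM ι (algebraMap Qb (modularFunctionFieldBar (M * q)) c) =
      algebraMap ℂ (LaurentSeries ℂ) (ι c) := by
  have h : Torsion.embFC (M * q) ι (algebraMap Qb (modularFunctionFieldBar (M * q)) c) =
      algebraMap ℂ (FC (M * q)) (ι c) := Subtype.ext (by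
    show coeffMap ι (algebraMap Qb (LaurentSeries Qb) c) = algebraMap ℂ (LaurentSeries ℂ) (ι c)
    rw [ModularCosets.algebraMap_eq_HC, ModularCosets.algebraMap_eq_HC, HahnSeries.C_apply,
      HahnSeries.C_apply, coeffMap_single])
  show cuspHom _ (Torsion.embFC (M * q) ι _) = _
  rw [h, AlgHom.commutes]

theorem cuspOmega_jAt (d : DivIdx (M * q)) :
    cuspOmega hqM ι (jAt d) = ModularCurve.qExpand ℂ M (jSeries ℂ (swapIdx q (d : ℕ))) := by
  haveI : NeZero (swapIdx q (d : ℕ)) := ⟨swapIdx_ne_zero d⟩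
  show cuspHom _ (Torsion.embFC (M * q) ι (jAt d)) = _
  refine cuspSer_eq ?_
  have h : ((Torsion.embFC (M * q) ι (jAt d) : FC (M * q)) : LaurentSeries ℂ) =
      coeffEmb ℂ (ModularCurve.qExpand ℚ (d : ℕ) jq) := by
    rw [Torsion.coe_embFC]
    show coeffMap ι (jSeries Qb (d : ℕ)) = _
    rw [Kronecker.coeffMap_jSeries, Mod2.jSeries_complex, coeffEmb, ModularCurve.coeffMap_qExpand]
  rw [h, ev_jq_qExpand]
  have h1 := (hasQExp_jFun.comp_affine one_ne_zero (swapIdx q (d : ℕ)) q (0 : ℤ)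
    (φ := fun z => triSmul (swapIdx q (d : ℕ)) 0 q z)
    fun z => by rw [ModularCosets.coe_triSmul]).qExpand M
  have hu : (Units.mk0 (Complex.exp (2 * Real.pi * Complex.I * ((0 : ℤ) : ℂ) /
      ((q : ℂ) * ((1 : ℝ) : ℂ)))) (Complex.exp_ne_zero _)) = 1 := Units.ext (by simp)
  have hper : (M : ℝ) * ((q : ℝ) * 1) = ((M * q : ℕ) : ℝ) := by rw [mul_one, Nat.cast_mul]
  rw [hu, hper, Mod2.twistSeries_one, ← Mod2.jSeries_complex] at h1
  exact h1.congr (Eventually.of_forall fun z => (jMulFun_omega hqM d z).symm)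

theorem qExpand_coeffMap_atkinLehner (y : modularFunctionFieldBar (M * q)) :
    ModularCurve.qExpand ℂ M (coeffMap ι (atkinLehner Fact.out hqM y : LaurentSeries Qb)) =
      cuspOmega hqM ι y :=
  DFunLike.congr_fun (Mod2.ringHom_ext_bar
    ((ModularCurve.qExpand ℂ M).comp ((coeffMap ι).comp
      ((modularFunctionFieldBar (M * q)).toSubfield.subtype.comp
        (atkinLehner (Fact.out : q.Prime) hqM).toRingHom)))
    (cuspOmega hqM ι) (fun c => by
      show ModularCurve.qExpand ℂ M (coeffMap ι ((atkinLehner (Fact.out : q.Prime) hqM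
        (algebraMap Qb _ c) : modularFunctionFieldBar (M * q)) : LaurentSeries Qb)) = _
      rw [AlgHom.commutes, cuspOmega_algebraMap]
      show ModularCurve.qExpand ℂ M (coeffMap ι (algebraMap Qb (LaurentSeries Qb) c)) = _
      rw [ModularCosets.algebraMap_eq_HC, ModularCosets.algebraMap_eq_HC, HahnSeries.C_apply,
        HahnSeries.C_apply, coeffMap_single, qExpand_single, mul_zero])
    fun d => by
      show ModularCurve.qExpand ℂ M (coeffMap ι ((atkinLehner (Fact.out : q.Prime) hqM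
        (jAt d) : modularFunctionFieldBar (M * q)) : LaurentSeries Qb)) = _
      rw [atkinLehner_jAt, cuspOmega_jAt, Kronecker.coeffMap_jSeries]) y

theorem glM_matW_smul (z : ℍ) :
    glM (matW hqM) (det_matW_ne hqM) • z =
      (Ihara.omegaL hqM : SL(2, ℤ)) • (ModularForm.heckeDiagMatrix q • z) := by
  rw [HeckeH.glM_mul_smul (by rw [HeckeH.det_matOf]; exact one_ne_zero) Degen.det_dMat
    (det_matW_ne hqM) rfl, glM_matOf_smul, ← Degen.heckeDiagMatrix_eq_glM_dMat]

/-- `f (W z)`. -/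
def translateW (f : ℍ → ℂ) : ℍ → ℂ := fun z => f (glM (matW hqM) (det_matW_ne hqM) • z)

/-- The involution on functions is `f ↦ f ∘ W`. -/
theorem ev_atkinLehner (y : modularFunctionFieldBar (M * q)) :
    ev ((Torsion.embFC (M * q) ι (atkinLehner Fact.out hqM y) : FC (M * q)) : LaurentSeries ℂ) =
      translateW hqM (ev ((Torsion.embFC (M * q) ι y : FC (M * q)) : LaurentSeries ℂ)) := by
  have h := (hasQExp_cuspHom (M := M * q) (Ihara.omegaL hqM : SL(2, ℤ))
    (Torsion.embFC (M * q) ι y)).comp_mul q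
    (φ := fun z => ModularForm.heckeDiagMatrix q • z)
    fun z => ModularForm.coe_heckeDiagMatrix_smul (NeZero.ne q) z
  have hs : cuspHom (Ihara.omegaL hqM : SL(2, ℤ)) (Torsion.embFC (M * q) ι y) =
      ModularCurve.qExpand ℂ M
        ((Torsion.embFC (M * q) ι (atkinLehner Fact.out hqM y) : FC (M * q)) :
          LaurentSeries ℂ) :=
    (qExpand_coeffMap_atkinLehner hqM ι y).symm
  rw [hs, qExpand_qExpand] at h
  have h' := h.congr (g := translateW hqM (ev ((Torsion.embFC (M * q) ι y : FC (M * q)) :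
    LaurentSeries ℂ))) (Eventually.of_forall fun z => by simp only [translateW, glM_matW_smul])
  have h1 := (hasQExp_ev (Torsion.embFC (M * q) ι (atkinLehner Fact.out hqM y))).qExpand (M * q)
  rw [mul_one] at h1
  rw [qExpand_congr (mul_comm q M)] at h'
  exact (isMero_ev _).eq_of_hasQExp (HeckeH.natCast_pos_real (M * q))
    ((isMero_ev _).comp_glSmul (HeckeH.det_glM_pos _ (det_matW_pos hqM))) h1 h'

theorem matW_mul_matOf (γ : Gamma0 (M * q)) :
    matW hqM * matOf γ = matOf (Ihara.theta hqM γ) * matW hqM := by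
  rw [← Ihara.matOf_inclHom M q (Ihara.theta hqM γ), Ihara.inclHom_theta, matW,
    ← Matrix.mul_assoc, ← HeckeH.matOf_mul, inv_mul_cancel_right, HeckeH.matOf_mul,
    Matrix.mul_assoc, Ihara.dMat_mul_iqHom, ← Matrix.mul_assoc]

theorem glM_matW_smul_gamma (γ : Gamma0 (M * q)) (z : ℍ) :
    glM (matW hqM) (det_matW_ne hqM) • ((γ : SL(2, ℤ)) • z) =
      ((Ihara.theta hqM γ : Gamma0 (M * q)) : SL(2, ℤ)) •
        (glM (matW hqM) (det_matW_ne hqM) • z) := by
  have h1 : (matOf γ).det ≠ 0 := by rw [HeckeH.det_matOf]; exact one_ne_zero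
  have h2 : (matOf (Ihara.theta hqM γ)).det ≠ 0 := by rw [HeckeH.det_matOf]; exact one_ne_zero
  have hp : (matW hqM * matOf γ).det ≠ 0 := by
    rw [Matrix.det_mul]; exact mul_ne_zero (det_matW_ne hqM) h1
  rw [← glM_matOf_smul γ h1, ← HeckeH.glM_mul_smul (det_matW_ne hqM) h1 hp rfl,
    HeckeH.glM_mul_smul h2 (det_matW_ne hqM) hp (matW_mul_matOf hqM γ), glM_matOf_smul]

theorem growth_translateW {f : ℍ → ℂ} (hf : GrowsAtCusps f) (γ : SL(2, ℤ)) :
    ∃ κ : ℝ, HasGrowth (fun z => translateW hqM f (γ • z)) κ :=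
  hf.comp_glM (matW hqM) (det_matW_ne hqM) (det_matW_pos hqM) γ

theorem isMult_translateW {n : ℕ} [NeZero n]
    {φ : Additive (Gamma0 (M * q)) →+ ZMod n} {f : ℍ → ℂ}
    (hf : IsMult (M * q) f (Torsion.expChar φ)) {D : Divisor ℂ (FC (M * q))}
    (hD : Torsion.HasDivisor (M * q) f D) :
    IsMult (M * q) (translateW hqM f)
      (Torsion.expChar (φ.comp (MonoidHom.toAdditive (Ihara.theta hqM)))) where
  mero := hf.mero.comp_glSmul (HeckeH.det_glM_pos _ (det_matW_pos hqM))
  meroCusp γ := by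
    obtain ⟨κ, hκ⟩ := growth_translateW hqM (HeckeH.growsAtCusps_of_hasDivisor hD) γ
    exact hκ.exists_bounded (Nat.cast_pos.mpr (Nat.pos_of_ne_zero (NeZero.ne (M * q))))
  nonzero := by
    refine ⟨UpperHalfPlane.I, ?_⟩
    unfold translateW
    rw [meromorphicOrderAt_comp_glSmul f (HeckeH.det_glM_pos _ (det_matW_pos hqM)), hD.order]
    exact WithTop.coe_ne_top
  smul γ z := by
    show f (glM (matW hqM) _ • ((γ : SL(2, ℤ)) • z)) = _
    rw [glM_matW_smul_gamma, hf.smul, Torsion.coe_expChar, Torsion.coe_expChar]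
    rfl

theorem wAut_mem_torsion {n : ℕ} {x : JZero (M * q)} (hx : x ∈ Reps.tors (M * q) n) :
    wAut (Fact.out : q.Prime) hqM • x ∈ Reps.tors (M * q) n := by
  rw [Pic0.mem_torsion] at hx ⊢
  have h := map_zsmul (DistribSMul.toAddMonoidHom (JZero (M * q))
    (wAut (Fact.out : q.Prime) hqM)) (n : ℤ) x
  rw [hx, map_zero] at h
  exact h.symm

set_option maxHeartbeats 2000000 in
/-- The involution at `q` is `thetaH` on characters. -/
theorem jTorsionEquiv_wAut {n : ℕ} [NeZero n] (x : Reps.tors (M * q) n) :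
    Torsion.jTorsionEquiv (M * q) ι n
        ⟨wAut Fact.out hqM • (x : JZero (M * q)), wAut_mem_torsion hqM x.2⟩ =
      Ihara.thetaH (ZMod n) (ZMod n) hqM (Torsion.jTorsionEquiv (M * q) ι n x) := by
  obtain ⟨x, hxn⟩ := x
  obtain ⟨D, rfl⟩ := Pic0.mk_surjective x
  set τ := wAut (M := M) (Fact.out : q.Prime) hqM with hτ
  set E : Divisor.degZero (K := Qb) (F := modularFunctionFieldBar (M * q)) :=
    degZeroSMulHom τ D with hE
  have hnD : n • (D : Divisor Qb (modularFunctionFieldBar (M * q))) ∈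
      Divisor.principal (K := Qb) (F := modularFunctionFieldBar (M * q)) := by
    have h0 : Pic0.mk (n • D) = 0 := by
      have := Pic0.mem_torsion.mp hxn
      rw [natCast_zsmul] at this
      exact this
    have := (QuotientAddGroup.eq_zero_iff _).mp h0
    simpa [AddSubgroup.mem_addSubgroupOf] using this
  obtain ⟨y, hy0, hy⟩ := hnD
  have hy'0 : atkinLehner Fact.out hqM y ≠ 0 := (map_ne_zero _).mpr hy0
  have hnE : ∀ w, (n • (E : Divisor Qb (modularFunctionFieldBar (M * q)))) w =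
      w.ord (atkinLehner Fact.out hqM y) := by
    intro w
    have h1 := hy (τ⁻¹ • w)
    have h2 : (E : Divisor Qb (modularFunctionFieldBar (M * q))) w =
        (D : Divisor Qb (modularFunctionFieldBar (M * q))) (τ⁻¹ • w) := by
      rw [hE, coe_degZeroSMulHom, SemilinearAut.divisor_smul_apply]
    have h3 := SemilinearAut.ord_smul τ (τ⁻¹ • w) y
    rw [smul_inv_smul, hτ, wAut_smul, ← hτ] at h3
    rw [Finsupp.smul_apply] at h1 ⊢
    rw [h2, h1, h3]
  have hDC : n • Torsion.divExt ι (D : Divisor Qb (modularFunctionFieldBar (M * q))) ∈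
      Divisor.principal (K := ℂ) (F := FC (M * q)) := by
    rw [← map_nsmul, Torsion.divExt_mem_principal_iff]
    exact ⟨y, hy0, hy⟩
  obtain ⟨φ, hφ, f, hfm, hfD⟩ := Torsion.exists_mult_of_nsmul_principal hDC
  have hx1 : Pic0.mk (Torsion.degZeroExt ι D) ∈ Pic0.torsion ℂ (FC (M * q)) n :=
    (Torsion.picExtTorsion ι n ⟨Pic0.mk D, hxn⟩).2
  have hex : (Torsion.jTorsionEquiv (M * q) ι n ⟨Pic0.mk D, hxn⟩ :
      Additive (Gamma0 (M * q)) →+ ZMod n) = φ :=
    Torsion.torsionEquiv_eq (D := Torsion.degZeroExt ι D) hx1 hfm hfD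
  have hTφ : φ.comp (MonoidHom.toAdditive (Ihara.theta hqM)) ∈
      Period.H (M * q) (ZMod n) (ZMod n) :=
    (Ihara.thetaH (ZMod n) (ZMod n) hqM ⟨φ, hφ⟩).2
  have hfT := isMult_translateW hqM hfm hfD
  obtain ⟨D₀, hD₀, -⟩ := Torsion.exists_divisor_of_mult hTφ hfT
  have hY : Torsion.HasDivisor (M * q)
      (ev ((Torsion.embFC (M * q) ι y : FC (M * q)) : LaurentSeries ℂ))
      (n • Torsion.divExt ι (D : Divisor Qb (modularFunctionFieldBar (M * q)))) := by
    refine Torsion.hasDivisor_ev ((map_ne_zero_iff _ (Torsion.embFC (M * q) ι).injective).mpr hy0)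
      fun w => ?_
    rw [← map_nsmul]
    exact HeckeH.divExt_apply_eq_ord ι hy w
  have hY' : Torsion.HasDivisor (M * q)
      (ev ((Torsion.embFC (M * q) ι (atkinLehner Fact.out hqM y) : FC (M * q)) : LaurentSeries ℂ))
      (n • Torsion.divExt ι (E : Divisor Qb (modularFunctionFieldBar (M * q)))) := by
    refine Torsion.hasDivisor_ev ((map_ne_zero_iff _ (Torsion.embFC (M * q) ι).injective).mpr hy'0)
      fun w => ?_
    rw [← map_nsmul]
    exact HeckeH.divExt_apply_eq_ord ι hnE w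
  rw [ev_atkinLehner] at hY'
  have hpos := HeckeH.det_glM_pos (det_matW_ne hqM) (det_matW_pos hqM)
  have hkey : D₀ = Torsion.degZeroExt ι E := by
    refine Subtype.ext (Finsupp.ext fun v => ?_)
    show (D₀ : Divisor ℂ (FC (M * q))) v =
      Torsion.divExt ι (E : Divisor Qb (modularFunctionFieldBar (M * q))) v
    have hn : (n : ℤ) ≠ 0 := by exact_mod_cast NeZero.ne n
    rcases place_exhaustive v with ⟨z, rfl⟩ | ⟨γ, rfl⟩
    · have he : (ellOrder (M * q) z : ℤ) ≠ 0 := by
        exact_mod_cast (ModularPlaces.ellOrder_pos (N := M * q) z).ne'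
      have h1 := hD₀.order z
      unfold translateW at h1
      rw [meromorphicOrderAt_comp_glSmul f hpos, hfD.order, WithTop.coe_eq_coe] at h1
      have h2 := hY'.order z
      unfold translateW at h2
      rw [meromorphicOrderAt_comp_glSmul _ hpos, hY.order, WithTop.coe_eq_coe] at h2
      simp only [Finsupp.smul_apply, nsmul_eq_mul] at h2
      refine mul_left_cancel₀ hn (mul_left_cancel₀ he ?_)
      rw [← h2, mul_left_comm, ← h1]
      ring
    · obtain ⟨κ, hκ⟩ := growth_translateW hqM (HeckeH.growsAtCusps_of_hasDivisor hfD) γ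
      have h1 := hκ.unique (HeckeH.hasGrowth_of_hasDivisor hD₀ γ)
      have hpow : ∀ (δ : SL(2, ℤ)) (a : ℝ), HasGrowth (fun z => f (δ • z)) a →
          HasGrowth (fun z => ev ((Torsion.embFC (M * q) ι y : FC (M * q)) : LaurentSeries ℂ)
            (δ • z)) (n * a) := by
        intro δ a ha
        rw [ha.unique (HeckeH.hasGrowth_of_hasDivisor hfD δ)]
        have := HeckeH.hasGrowth_of_hasDivisor hY δ
        simpa [Finsupp.smul_apply, mul_div_assoc] using this
      have h2 : HasGrowth (fun z => translateW hqM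
          (ev ((Torsion.embFC (M * q) ι y : FC (M * q)) : LaurentSeries ℂ)) (γ • z)) (n * κ) :=
        HeckeH.hasGrowth_smul_of_pow (HeckeH.growsAtCusps_of_hasDivisor hfD) hpow (matW hqM)
          (det_matW_ne hqM) (det_matW_pos hqM) γ hκ
      have h3 := h2.unique (HeckeH.hasGrowth_of_hasDivisor hY' γ)
      rw [h1] at h3
      simp only [Finsupp.smul_apply, nsmul_eq_mul, Int.cast_mul, Int.cast_natCast] at h3
      have hw : (cuspWidth (M * q) γ : ℝ) ≠ 0 := by
        exact_mod_cast (HeckeH.cuspWidth_pos (N := M * q) γ).ne'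
      have hn' : (n : ℝ) ≠ 0 := by exact_mod_cast NeZero.ne n
      field_simp at h3
      exact_mod_cast h3
  refine Subtype.ext ?_
  show _ = (Torsion.jTorsionEquiv (M * q) ι n ⟨Pic0.mk D, hxn⟩ :
    Additive (Gamma0 (M * q)) →+ ZMod n).comp (MonoidHom.toAdditive (Ihara.theta hqM))
  rw [hex, Torsion.jTorsionEquiv_apply]
  have hx2 : Pic0.mk D₀ ∈ Pic0.torsion ℂ (FC (M * q)) n :=
    (Torsion.mk_mem_torsion_of_mult hfT hD₀).1
  have he : Torsion.picExtTorsion ι n
      ⟨τ • (Pic0.mk D : JZero (M * q)), wAut_mem_torsion hqM hxn⟩ = ⟨Pic0.mk D₀, hx2⟩ := by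
    refine Subtype.ext ?_
    show Torsion.picExt (M * q) ι (τ • (Pic0.mk D : JZero (M * q))) = _
    rw [pic0_smul_mk, ← hE, Torsion.picExt_mk, ← hkey]
  rw [he]
  exact Torsion.torsionEquiv_eq hx2 hfT hD₀

/-! ### The Fricke twist -/

/-- The element relating `wF W` and `W wF`. -/
def deltaElt : Gamma0 (M * q) :=
  HeckeH.mkGamma0 ((M : ℤ) + q * Ihara.atT M q ^ 2) (-(1 + Ihara.atT M q * Ihara.atY M q))
    (-((M : ℤ) * q) * (1 + Ihara.atT M q * Ihara.atY M q)) ((q : ℤ) + M * Ihara.atY M q ^ 2)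
    (by linear_combination ((q : ℤ) * Ihara.atT M q - M * Ihara.atY M q + 1) * (Ihara.at_eq hqM))
    ⟨-(1 + Ihara.atT M q * Ihara.atY M q), by push_cast; ring⟩

theorem wFricke_mul_matW :
    HeckeH.wFricke (M * q) * matW hqM =
      matOf (deltaElt hqM) * (matW hqM * HeckeH.wFricke (M * q)) := by
  have h := Ihara.at_eq hqM
  rw [deltaElt, matW, Ihara.omegaL, HeckeH.matOf_mkGamma0, HeckeH.matOf_mkGamma0, dMat,
    HeckeH.wFricke]
  simp only [Matrix.mul_fin_two]
  ext i j
  fin_cases i <;> fin_cases j <;> simp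
  · linear_combination ((M : ℤ) * q) * h
  · linear_combination ((q : ℤ) * Ihara.atT M q) * h
  · linear_combination (-(M : ℤ) * q ^ 2) * h
  · linear_combination (-(M : ℤ) * q * Ihara.atY M q) * h

theorem wGamma0_theta (γ : Gamma0 (M * q)) :
    HeckeH.wGamma0 (M * q) (Ihara.theta hqM γ) =
      deltaElt hqM * Ihara.theta hqM (HeckeH.wGamma0 (M * q) γ) * (deltaElt hqM)⁻¹ := by
  have hw : (HeckeH.wFricke (M * q)).det ≠ 0 := Mod2.det_wFricke_ne
  refine HeckeH.matOf_injective (HeckeH.mul_right_cancel_of_det_ne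
    (c := HeckeH.wFricke (M * q) * matW hqM)
    (by rw [Matrix.det_mul]; exact mul_ne_zero hw (det_matW_ne hqM)) ?_)
  have hl : matOf (HeckeH.wGamma0 (M * q) (Ihara.theta hqM γ)) *
      (HeckeH.wFricke (M * q) * matW hqM) = HeckeH.wFricke (M * q) * matW hqM * matOf γ := by
    rw [← Matrix.mul_assoc, ← HeckeH.wFricke_mul_matOf, Matrix.mul_assoc, ← matW_mul_matOf,
      Matrix.mul_assoc]
  have hr : matOf (deltaElt hqM * Ihara.theta hqM (HeckeH.wGamma0 (M * q) γ) *
      (deltaElt hqM)⁻¹) * (HeckeH.wFricke (M * q) * matW hqM) =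
      HeckeH.wFricke (M * q) * matW hqM * matOf γ := by
    rw [wFricke_mul_matW, ← Matrix.mul_assoc, ← HeckeH.matOf_mul, inv_mul_cancel_right,
      HeckeH.matOf_mul, Matrix.mul_assoc, Matrix.mul_assoc, ← Matrix.mul_assoc _ (matW hqM),
      ← matW_mul_matOf, Matrix.mul_assoc, Matrix.mul_assoc, ← HeckeH.wFricke_mul_matOf]
  exact hl.trans hr.symm

/-- The two involutions commute on characters. -/
theorem wH_thetaH (R A : Type*) [Semiring R] [AddCommGroup A] [Module R A]
    (φ : Period.H (M * q) R A) :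
    HeckeH.wH (M * q) R A (Ihara.thetaH R A hqM φ) =
      Ihara.thetaH R A hqM (HeckeH.wH (M * q) R A φ) := by
  refine Subtype.ext (AddMonoidHom.ext fun γ => ?_)
  obtain ⟨γ, rfl⟩ := Additive.ofMul.surjective γ
  rw [HeckeH.wH_apply, Ihara.thetaH_apply, Ihara.thetaH_apply, HeckeH.wH_apply]
  have := congrArg (fun g => (φ : Additive (Gamma0 (M * q)) →+ A) (Additive.ofMul g))
    (wGamma0_theta hqM (HeckeH.wGamma0 (M * q) γ))
  simp only [ofMul_mul, ofMul_inv, map_add, map_neg, add_neg_cancel_comm,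
    HeckeH.wGamma0_wGamma0] at this
  have h2 := congrArg (fun g => (φ : Additive (Gamma0 (M * q)) →+ A) (Additive.ofMul g))
    (wGamma0_theta hqM γ)
  simp only [ofMul_mul, ofMul_inv, map_add, map_neg] at h2
  rw [h2]
  abel

end FLTAgent.BadOdd
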