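import Fermat.Agent.BadOdd.Monodromy
import Fermat.Agent.BadOdd.WTorsion
import Fermat.Agent.Local.LevelOne
import Fermat.Agent.Mazur.Descent.Tame

/-!
# Frobenius on the monodromy at a prime `q` dividing the level exactly once

For `p ≠ q`, a Frobenius `φ` and an inertia element `τ` at `q` we prove on the `p`-adic Tate module
of `X₀(Mq)` that `φ (τ - 1) = q U_q (τ - 1)` (`frob_mul_sub_one`), that `φ τ = τ ^ q φ`
(`frob_mul_inertia`, from tame inertia) and that `(τ - 1) φ = U_q (τ - 1)` (`sub_one_mul_frob`).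
The first identity comes from `φ = -q w_q` on the image of `τ - 1` (`galP_frob_sub_one`): that image
is killed by corestriction to level `M` (`corP_mul_sub_one`), as `φ²` has no eigenvalue `q²` there,
and restriction after corestriction is `1 + U_q w_q` (`resP_mul_corP`).
-/

set_option autoImplicit false
set_option linter.style.haveILetI false
set_option linter.unusedSectionVars false
set_option synthInstance.maxHeartbeats 400000
set_option maxHeartbeats 1600000

noncomputable section

open ModularCurve AlgebraicCurve Matrix CongruenceSubgroup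
open scoped MatrixGroups

namespace FLTAgent.BadOdd

open FLTAgent.LowerQ (wAut galF)

local notation "Qb" => AlgebraicClosure ℚ
local notation "Γℚ" => (AlgebraicClosure ℚ ≃ₐ[ℚ] AlgebraicClosure ℚ)

variable {M q : ℕ} [NeZero M] [Fact q.Prime] (hqM : ¬ q ∣ M)

/-! ### Integral matrices -/

/-- The matrix of the involution at `q`. -/
def thetaMat : Degen.RMat (M * q) (M * q) := Degen.rectMat (Ihara.thetaH ℤ ℤ hqM)

theorem rectAct_thetaMat (R A : Type*) [CommRing R] [AddCommGroup A] [Module R A] :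
    Degen.rectAct R A (thetaMat hqM) = Ihara.thetaH R A hqM := by
  refine Degen.rectAct_rectMat _ _ fun φ i => ?_
  simp only [Ihara.thetaH_apply]
  exact Period.H_decomp φ _

variable (M q) in
/-- The matrix of `U_q`. -/
def heckeMatQ : HeckeH.HMat (M * q) :=
  HeckeH.heckeMatHom (M * q) (Reps.heckeGenOf (M * q) ⟨q, Fact.out⟩)

theorem degMat_one_mul_corMat :
    Degen.degMat 1 (Ihara.dvd_one_mul' M q) * Degen.corMat (N := M) (M := M * q) =
      1 + heckeMatQ M q * thetaMat hqM :=
  Degen.rectAct_int_injective fun φ => by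
    rw [Degen.rectAct_mul, Degen.rectAct_corMat, Degen.rectAct_degMat,
      Degen.rectAct_eq_matAct (1 + _), map_add, map_one, map_mul, LinearMap.add_apply,
      Module.End.mul_apply, ← Degen.rectAct_eq_matAct (thetaMat hqM), rectAct_thetaMat]
    refine (Ihara.resH_corH hqM ℤ ℤ φ).trans ?_
    rw [← Reps.heckeEnd_heckeGenOf (M * q) ⟨q, Fact.out⟩]
    rfl

include hqM in
theorem corMat_mul_degMat_one :
    Degen.corMat (N := M) (M := M * q) * Degen.degMat 1 (Ihara.dvd_one_mul' M q) =
      (q + 1) • (1 : Degen.RMat M M) := by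
  have hidx : (Degen.subG0 M (M * q)).index = q + 1 := by
    rw [Subgroup.index, ← Nat.card_congr (Ihara.cosEquiv hqM)]
    simp
  refine Degen.rectAct_int_injective fun φ => ?_
  rw [Degen.rectAct_mul, Degen.rectAct_corMat, Degen.rectAct_degMat, Degen.corH_degH, hidx,
    Degen.rectAct_eq_matAct, map_nsmul, map_one]
  rfl

theorem wGamma0_iqHom_wGamma0 (γ : Gamma0 (M * q)) :
    HeckeH.wGamma0 M (Ihara.iqHom M q (HeckeH.wGamma0 (M * q) γ)) = Ihara.inclHom M q γ := by
  have e : HeckeH.wFricke M * Degen.dMat q = HeckeH.wFricke (M * q) := by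
    rw [HeckeH.wFricke, HeckeH.wFricke, Degen.dMat, Matrix.mul_fin_two]
    ext i j
    fin_cases i <;> fin_cases j <;> simp
  have hd : (HeckeH.wFricke M * Degen.dMat q).det ≠ 0 := by
    rw [e]; exact Mod2.det_wFricke_ne
  refine HeckeH.matOf_injective (HeckeH.mul_right_cancel_of_det_ne hd ?_)
  rw [Ihara.matOf_inclHom, ← Matrix.mul_assoc, ← HeckeH.wFricke_mul_matOf, Matrix.mul_assoc,
    ← Ihara.dMat_mul_iqHom, ← Matrix.mul_assoc, e, HeckeH.wFricke_mul_matOf,
    HeckeH.wGamma0_wGamma0]

/-- In twisted coordinates the second degeneracy map is restriction. -/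
theorem degTw_eq_degMat_one :
    Degen.degTw q (Ihara.dvd_self_mul' M q) = Degen.degMat 1 (Ihara.dvd_one_mul' M q) :=
  Degen.rectAct_int_injective fun φ => by
    rw [Degen.degTw, Degen.rectAct_mul, Degen.rectAct_mul, Degen.rectAct_frickeMat,
      Degen.rectAct_frickeMat, Degen.rectAct_degMat, Degen.rectAct_degMat]
    refine Subtype.ext (AddMonoidHom.ext fun γ => ?_)
    obtain ⟨γ, rfl⟩ := Additive.ofMul.surjective γ
    rw [HeckeH.wH_apply, Ihara.degQ_apply, HeckeH.wH_apply, wGamma0_iqHom_wGamma0]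
    exact (Ihara.resH_apply M q ℤ ℤ φ γ).symm

/-! ### The Tate modules -/

variable (p : ℕ) [Fact p.Prime]

/-- The involution on the Tate module. -/
abbrev thetaP : Matrix (Fin (Period.rankH (M * q))) (Fin (Period.rankH (M * q))) ℤ_[p] :=
  (Int.castRingHom ℤ_[p]).mapMatrix (thetaMat hqM)

variable (M q) in
/-- `U_q` on the Tate module. -/
abbrev heckeP : Matrix (Fin (Period.rankH (M * q))) (Fin (Period.rankH (M * q))) ℤ_[p] :=
  (Int.castRingHom ℤ_[p]).mapMatrix (heckeMatQ M q)

variable {p}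

theorem thetaP_coord (m : ℕ) (x : Reps.tors (M * q) (p ^ m)) :
    (PadicInt.toZModPow m).mapMatrix (thetaP hqM p) *ᵥ Reps.coordTors (M * q) (p ^ m) x =
      Reps.coordTors (M * q) (p ^ m)
        ⟨wAut Fact.out hqM • (x : JZero (M * q)), wAut_mem_torsion hqM x.2⟩ := by
  rw [thetaP, Reps.toZModPow_intMat, Reps.coordTors_apply, Reps.coordTors_apply,
    jTorsionEquiv_wAut, wH_thetaH, ← rectAct_thetaMat]
  exact Degen.mulVec_evalEquiv (thetaMat hqM) _

theorem thetaP_mul_self : thetaP hqM p * thetaP hqM p = 1 := by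
  refine Reps.padicMatrix_ext fun m => Reps.ext_mulVec (M * q) (p ^ m) fun x => ?_
  rw [map_mul, map_one, ← Matrix.mulVec_mulVec, thetaP_coord, thetaP_coord, Matrix.one_mulVec]
  refine congrArg _ (Subtype.ext ?_)
  show wAut Fact.out hqM • wAut Fact.out hqM • (x : JZero (M * q)) = x
  rw [smul_smul, LowerQ.wAut_mul_self, one_smul]

theorem galP_thetaP (σ : Γℚ) :
    galP p (M * q) σ * thetaP hqM p = thetaP hqM p * galP p (M * q) σ := by
  refine Reps.padicMatrix_ext fun m => Reps.ext_mulVec (M * q) (p ^ m) fun x => ?_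
  rw [map_mul, map_mul, ← Matrix.mulVec_mulVec, ← Matrix.mulVec_mulVec, thetaP_coord, galP_coord,
    galP_coord, thetaP_coord]
  refine congrArg _ (Subtype.ext ?_)
  show galF (M * q) σ • wAut Fact.out hqM • (x : JZero (M * q)) =
    wAut Fact.out hqM • galF (M * q) σ • (x : JZero (M * q))
  rw [smul_smul, smul_smul, LowerQ.wAut_mul_galF]

theorem galP_heckeP (σ : Γℚ) :
    galP p (M * q) σ * heckeP M q p = heckeP M q p * galP p (M * q) σ :=
  (Reps.galModel (M * q) p).commute_hecke σ (Reps.heckeGenOf (M * q) ⟨q, Fact.out⟩)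

/-- Restriction on the Tate modules. -/
abbrev resP (M q p : ℕ) [NeZero M] [Fact q.Prime] [Fact p.Prime] :
    Matrix (Fin (Period.rankH (M * q))) (Fin (Period.rankH M)) ℤ_[p] :=
  (Degen.degMat 1 (Ihara.dvd_one_mul' M q)).map (Int.castRingHom ℤ_[p])

/-- Corestriction on the Tate modules. -/
abbrev corP (M q p : ℕ) [NeZero M] [Fact q.Prime] [Fact p.Prime] :
    Matrix (Fin (Period.rankH M)) (Fin (Period.rankH (M * q))) ℤ_[p] :=
  (Degen.corMat (N := M) (M := M * q)).map (Int.castRingHom ℤ_[p])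

/-- Restriction after corestriction is `1 + U_q w_q`. -/
theorem resP_mul_corP : resP M q p * corP M q p = 1 + heckeP M q p * thetaP hqM p := by
  rw [← Matrix.map_mul, degMat_one_mul_corMat hqM]
  show (Int.castRingHom ℤ_[p]).mapMatrix (1 + heckeMatQ M q * thetaMat hqM) = _
  rw [map_add, map_one, map_mul]

include hqM in
theorem corP_mul_resP : corP M q p * resP M q p = (q + 1) • 1 := by
  rw [← Matrix.map_mul, corMat_mul_degMat_one hqM]
  show (Int.castRingHom ℤ_[p]).mapMatrix ((q + 1) • 1) = _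
  rw [map_nsmul, map_one]

theorem nsmul_cancel {m n : Type*} [Finite m] [Finite n] {k : ℕ} (hk : k ≠ 0)
    {X Y : Matrix m n ℤ_[p]} (h : k • X = k • Y) : X = Y := by
  ext i j
  have e := congrFun (congrFun h i) j
  simp only [Matrix.smul_apply, nsmul_eq_mul] at e
  exact mul_left_cancel₀ (Nat.cast_ne_zero.mpr hk) e

theorem resP_galP (σ : Γℚ) : resP M q p * galP p M σ = galP p (M * q) σ * resP M q p := by
  have h := Degen.degTw_galois (M := M * q) Reps.qbarEmb (MN := galP p M)
    (MM := galP p (M * q)) (fun m τ x => Reps.galModel_coord M p m τ x)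
    (fun m τ x => Reps.galModel_coord (M * q) p m τ x) q (Ihara.dvd_self_mul' M q) σ
  rwa [degTw_eq_degMat_one] at h

include hqM in
theorem galP_corP (σ : Γℚ) : galP p M σ * corP M q p = corP M q p * galP p (M * q) σ := by
  refine nsmul_cancel (Nat.succ_ne_zero q) ?_
  show (q + 1) • (galP p M σ * corP M q p) = (q + 1) • (corP M q p * galP p (M * q) σ)
  have hA : galP p (M * q) σ * (resP M q p * corP M q p) =
      resP M q p * corP M q p * galP p (M * q) σ := by
    rw [resP_mul_corP hqM, mul_add, add_mul, mul_one, one_mul, ← mul_assoc, galP_heckeP, mul_assoc,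
      galP_thetaP, ← mul_assoc]
  calc (q + 1) • (galP p M σ * corP M q p)
      = ((q + 1) • (1 : Matrix (Fin (Period.rankH M)) (Fin (Period.rankH M)) ℤ_[p])) *
          (galP p M σ * corP M q p) := by rw [Matrix.smul_mul, Matrix.one_mul]
    _ = corP M q p * resP M q p * (galP p M σ * corP M q p) := by rw [corP_mul_resP hqM]
    _ = corP M q p * (galP p (M * q) σ * (resP M q p * corP M q p)) := by
        rw [Matrix.mul_assoc, ← Matrix.mul_assoc (resP M q p), resP_galP, Matrix.mul_assoc]
    _ = corP M q p * resP M q p * (corP M q p * galP p (M * q) σ) := by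
        rw [hA, Matrix.mul_assoc, Matrix.mul_assoc]
    _ = (q + 1) • (corP M q p * galP p (M * q) σ) := by
        rw [corP_mul_resP hqM, Matrix.smul_mul, Matrix.one_mul]

/-! ### Frobenius on the monodromy -/

variable (A : ValuationSubring Qb)

/-- Frobenius is `-q w_q` on the image of the monodromy. -/
theorem galP_frob_sub_one (hpq : p ≠ q) (hA : A.LiesOverPrime q) {φ τ : Γℚ}
    (hφ : A.IsFrobeniusAt φ q) (hτ : τ ∈ A.inertiaSubgroupIn ℚ) :
    galP p (M * q) φ * (galP p (M * q) τ - 1) =
      -((q : Matrix (Fin (Period.rankH (M * q))) (Fin (Period.rankH (M * q))) ℤ_[p]) *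
        (thetaP hqM p * (galP p (M * q) τ - 1))) := by
  have hq : q.Prime := Fact.out
  haveI := GalCommon.isAlgClosed_residueField A hq hA
  refine Reps.padicMatrix_ext fun m => Reps.ext_mulVec (M * q) (p ^ m) fun x => ?_
  set y : Reps.tors (M * q) (p ^ m) := JZero.torsionGaloisRep (M * q) (p ^ m) τ x - x with hy
  have hW : (PadicInt.toZModPow m).mapMatrix (galP p (M * q) τ - 1) *ᵥ
      Reps.coordTors (M * q) (p ^ m) x = Reps.coordTors (M * q) (p ^ m) y := by
    rw [map_sub, map_one, Matrix.sub_mulVec, Matrix.one_mulVec, galP_coord, hy, map_sub]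
  obtain ⟨gd⟩ := (BadQ.compat_inertia A M q hq hqM hA (hgen A hq hqM hA) hτ).exists_good_sub
    (pow_ne_zero m (Fact.out : p.Prime).ne_zero) x.2
  have hkey := (swap A hq hqM hA).frob_smul_eq (natCast_pow_ne_zero A hq hA hpq m)
    (one_le_nX A hq hqM hA) gd (BadQ.compat_frobenius A M q hq hqM hA (hgen A hq hqM hA) hφ)
  rw [map_mul, map_neg, map_mul, map_mul, map_natCast, Matrix.neg_mulVec, ← Matrix.mulVec_mulVec,
    ← Matrix.mulVec_mulVec, ← Matrix.mulVec_mulVec, hW, galP_coord, thetaP_coord,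
    Matrix.natCast_mulVec, Nat.cast_smul_eq_nsmul, ← map_nsmul, ← map_neg]
  exact congrArg _ (Subtype.ext hkey)

include hqM in
/-- Corestriction to level `M` kills the image of the monodromy. -/
theorem corP_mul_sub_one (hpq : p ≠ q) (hA : A.LiesOverPrime q) {φ τ : Γℚ}
    (hφ : A.IsFrobeniusAt φ q) (hτ : τ ∈ A.inertiaSubgroupIn ℚ) :
    corP M q p * (galP p (M * q) τ - 1) = 0 := by
  set W := galP p (M * q) τ - 1 with hW
  set G := galP p (M * q) φ with hG
  set Q : Matrix (Fin (Period.rankH (M * q))) (Fin (Period.rankH (M * q))) ℤ_[p] :=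
    (q : Matrix (Fin (Period.rankH (M * q))) (Fin (Period.rankH (M * q))) ℤ_[p]) with hQ
  have h1 : G * W = -(Q * (thetaP hqM p * W)) := galP_frob_sub_one hqM A hpq hA hφ hτ
  have h2 : G * (G * W) = Q * Q * W := by
    have hc : G * Q = Q * G := Nat.commute_cast G q
    have ht : Q * thetaP hqM p = thetaP hqM p * Q := Nat.cast_commute q _
    calc G * (G * W) = -((G * Q) * (thetaP hqM p * W)) := by
          rw [h1, mul_neg]; simp only [mul_assoc]
      _ = -(Q * ((G * thetaP hqM p) * W)) := by rw [hc]; simp only [mul_assoc]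
      _ = -(Q * (thetaP hqM p * (G * W))) := by rw [hG, galP_thetaP]; simp only [mul_assoc]
      _ = Q * ((thetaP hqM p * Q) * (thetaP hqM p * W)) := by
          rw [h1, mul_neg, mul_neg, neg_neg]; simp only [mul_assoc]
      _ = Q * Q * ((thetaP hqM p * thetaP hqM p) * W) := by rw [← ht]; simp only [mul_assoc]
      _ = Q * Q * W := by rw [thetaP_mul_self, one_mul]
  have h3 : galP p M φ * (galP p M φ * (corP M q p * W)) =
      ((q : ℤ_[p]) ^ 2) • (corP M q p * W) := by
    rw [← Matrix.mul_assoc (galP p M φ) (corP M q p), galP_corP hqM, Matrix.mul_assoc,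
      ← Matrix.mul_assoc (galP p M φ), galP_corP hqM, Matrix.mul_assoc, ← hG, h2, hQ,
      ← Nat.cast_mul, ← Matrix.mul_smul]
    congr 1
    rw [← nsmul_eq_mul, ← Nat.cast_smul_eq_nsmul ℤ_[p]]
    congr 1
    push_cast
    ring
  let f : ℤ_[p] →+* ℚ_[p] := PadicInt.Coe.ringHom
  refine Local.linMap_zero_iff (f := f) (fun a b h => Subtype.ext h) fun v => ?_
  refine Local.frobenius_sq_ne_q f (Reps.galModel M p) (Fact.out : q.Prime) hqM (Ne.symm hpq) hA hφ
    ?_
  show Local.linMap f (galP p M φ) (Local.linMap f (galP p M φ) (Local.linMap f (corP M q p * W) v))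
    = (q : ℚ_[p]) ^ 2 • Local.linMap f (corP M q p * W) v
  rw [← Local.linMap_mul, ← Local.linMap_mul, Matrix.mul_assoc, h3, Local.linMap_smul, map_pow,
    map_natCast]

/-- Frobenius is `q U_q` on the image of the monodromy. -/
theorem frob_mul_sub_one (hpq : p ≠ q) (hA : A.LiesOverPrime q) {φ τ : Γℚ}
    (hφ : A.IsFrobeniusAt φ q) (hτ : τ ∈ A.inertiaSubgroupIn ℚ) (hqM : ¬ q ∣ M) :
    galP p (M * q) φ * (galP p (M * q) τ - 1) =
      q • (heckeP M q p * (galP p (M * q) τ - 1)) := by
  set W := galP p (M * q) τ - 1 with hW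
  have h0 : (1 + heckeP M q p * thetaP hqM p) * W = 0 := by
    rw [← resP_mul_corP, Matrix.mul_assoc, corP_mul_sub_one hqM A hpq hA hφ hτ, Matrix.mul_zero]
  have hc : thetaP hqM p * W = W * thetaP hqM p := by
    rw [hW, sub_mul, one_mul, mul_sub, mul_one, galP_thetaP]
  have h1 : heckeP M q p * W = -(thetaP hqM p * W) := by
    rw [add_mul, one_mul, mul_assoc, hc, ← mul_assoc] at h0
    have h2 := congrArg (· * thetaP hqM p) h0
    simp only [add_mul, zero_mul, mul_assoc, ← hc] at h2
    rwa [add_comm, add_eq_zero_iff_eq_neg, ← mul_assoc (thetaP hqM p) (thetaP hqM p),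
      thetaP_mul_self, one_mul] at h2
  rw [hW, galP_frob_sub_one hqM A hpq hA hφ hτ, ← hW, h1, smul_neg, nsmul_eq_mul]

/-! ### Tame inertia -/

include hqM in
theorem galP_pow (hpq : p ≠ q) (hA : A.LiesOverPrime q) {τ : Γℚ}
    (hτ : τ ∈ A.inertiaSubgroupIn ℚ) (k : ℕ) :
    galP p (M * q) τ ^ k = 1 + k • (galP p (M * q) τ - 1) := by
  have h := sub_one_mul_sub_one A p hpq (Fact.out : q.Prime) hqM hA hτ hτ
  induction k with
  | zero => simp
  | succ k ih =>
    rw [pow_succ, ih, succ_nsmul]
    have e : (k • (galP p (M * q) τ - 1)) * (galP p (M * q) τ - 1) = 0 := by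
      rw [smul_mul_assoc, h, smul_zero]
    rw [mul_sub, mul_one, sub_eq_zero] at e
    rw [add_mul, one_mul, e]
    abel

include hqM in
/-- Frobenius multiplies the monodromy by `q`. -/
theorem frob_mul_inertia (hpq : p ≠ q) (hA : A.LiesOverPrime q) {φ τ : Γℚ}
    (hφ : A.IsFrobeniusAt φ q) (hτ : τ ∈ A.inertiaSubgroupIn ℚ) :
    galP p (M * q) φ * galP p (M * q) τ = galP p (M * q) τ ^ q * galP p (M * q) φ := by
  have key : galP p (M * q) (φ * τ * φ⁻¹) = galP p (M * q) τ ^ q := by
    refine Reps.padicMatrix_ext fun m => ?_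
    obtain ⟨L, hLf, hL⟩ := (Reps.galModel (M * q) p).continuous_level m
    let ρ : Γℚ →* (Matrix (Fin (Period.rankH (M * q))) (Fin (Period.rankH (M * q)))
        (ZMod (p ^ m)))ˣ :=
      ((PadicInt.toZModPow m).mapMatrix.toMonoidHom.comp (galP p (M * q))).toHomUnits
    haveI := hLf
    obtain ⟨i₀, -, -, hF⟩ := Mazur.Tame.exists_inertia_generator ρ L
      (fun σ hσ => Units.ext (hL σ hσ)) (Fact.out : q.Prime) A hA (Fact.out : p.Prime) hpq
      fun i hi => ⟨m, Units.ext (by
        rw [Units.val_pow_eq_pow_val, Units.val_one]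
        show (PadicInt.toZModPow m).mapMatrix (galP p (M * q) i) ^ p ^ m = 1
        rw [← map_pow, galP_pow hqM A hpq hA hi, map_add, map_one, map_nsmul, add_eq_left,
          ← Nat.cast_smul_eq_nsmul (ZMod (p ^ m)), ZMod.natCast_self, zero_smul])⟩
    have h := congrArg Units.val (hF φ hφ τ hτ)
    rw [Units.val_pow_eq_pow_val] at h
    rw [map_pow]
    exact h
  rw [← key, ← map_mul, ← map_mul, inv_mul_cancel_right]

/-- Frobenius is `U_q` on the coimage of the monodromy. -/
theorem sub_one_mul_frob (hpq : p ≠ q) (hA : A.LiesOverPrime q) {φ τ : Γℚ}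
    (hφ : A.IsFrobeniusAt φ q) (hτ : τ ∈ A.inertiaSubgroupIn ℚ) (hqM : ¬ q ∣ M) :
    (galP p (M * q) τ - 1) * galP p (M * q) φ = heckeP M q p * (galP p (M * q) τ - 1) := by
  have h1 := frob_mul_inertia hqM A hpq hA hφ hτ
  rw [galP_pow hqM A hpq hA hτ, add_mul, one_mul, smul_mul_assoc] at h1
  have h2 := frob_mul_sub_one A hpq hA hφ hτ hqM
  rw [mul_sub, mul_one, h1, add_sub_cancel_left] at h2
  exact nsmul_cancel (Fact.out : q.Prime).ne_zero h2

end FLTAgent.BadOdd
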