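import Fermat.Agent.BadQ.LiftData
import Fermat.Agent.BadQ.Toric
import Fermat.Agent.Lift.Monodromy
import Fermat.Agent.LowerQ.Defs
import Fermat.Agent.Reps.Tate
import Fermat.Agent.Ihara.Operators

/-!
# Monodromy of `X₀(Mq)` at a prime `q ∤ M`

`dat` is the lifting data of `X₀(Mq)` at a valuation ring `A` over `q`, and `swap` says that the
Atkin–Lehner involution exchanges its two components. For `p ≠ q` we prove that a class `τ z - z`
(`τ` in inertia, `z` of `p`-power order) is fixed by inertia (`inertia_smul_sub`), hence that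
inertia acts on the `p`-adic Tate module unipotently of echelon two: `(σ - 1)(τ - 1) = 0`
(`sub_one_mul_sub_one`). `galP` is the Galois representation on that Tate module by matrices.
-/

set_option autoImplicit false
set_option linter.style.haveILetI false
set_option linter.unusedSectionVars false
set_option synthInstance.maxHeartbeats 400000
set_option maxHeartbeats 1600000

noncomputable section

open ModularCurve AlgebraicCurve Matrix

namespace FLTAgent.BadOdd

open FLTAgent.BadQ FLTAgent.LowerQ

local notation "Qb" => AlgebraicClosure ℚ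
local notation "Γℚ" => (AlgebraicClosure ℚ ≃ₐ[ℚ] AlgebraicClosure ℚ)

/-- The two degeneracy maps are jointly injective, so the rank at least doubles. -/
theorem two_mul_rankH_le (M q : ℕ) [NeZero M] [Fact q.Prime] (hqM : ¬ q ∣ M) :
    2 * Period.rankH M ≤ Period.rankH (M * q) := by
  have h := LinearMap.finrank_le_finrank_of_injective (Ihara.alpha_int_injective (q := q) hqM)
  rw [Module.finrank_prod, LinearEquiv.finrank_eq (Period.evalEquiv M ℤ ℤ),
    LinearEquiv.finrank_eq (Period.evalEquiv (M * q) ℤ ℤ), Module.finrank_fin_fun,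
    Module.finrank_fin_fun] at h
  omega

variable (A : ValuationSubring Qb) {M q : ℕ} [NeZero M] [NeZero q]
variable (hq : q.Prime) (hqM : ¬ q ∣ M) (hA : A.LiesOverPrime q)

local notation "kA" => IsLocalRing.ResidueField A

include hq hqM hA in
/-- The genus does not drop. -/
theorem hgen : genusFF kA (modularFunctionFieldFullC kA M) =
    genusFF Qb (modularFunctionFieldBar M) :=
  haveI := Fact.mk hq
  Reduction.genusFF_fullC_eq M A hA hqM

/-- The lifting data of `X₀(Mq)` at `A`. -/
abbrev dat := liftData A M q hq hqM hA (hgen A hq hqM hA)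

/-- There is at least one singular point. -/
theorem one_le_nX : 1 ≤ (dat A hq hqM hA).nX := by
  haveI := GalCommon.isAlgClosed_residueField A hq hA
  haveI := Fact.mk hq
  have h1 := Lift.Data.genus_eq (D := dat A hq hqM hA)
  have h2 := two_mul_rankH_le M q hqM
  rw [← two_mul_genusFF_bar, ← two_mul_genusFF_bar] at h2
  omega

/-- The Atkin–Lehner involution exchanges the two components. -/
theorem swap : (dat A hq hqM hA).Exchange (wAut hq hqM) where
  base _ := rfl
  mem_inf _ := Iff.rfl
  mem_zero f := by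
    show atkinLehner hq hqM (atkinLehner hq hqM f) ∈ VI A M q ↔ f ∈ VI A M q
    rw [atkinLehner_atkinLehner]
  red_inf _ _ := rfl
  red_zero f _ := by
    show (gaussInf A M q hq hqM hA).red (atkinLehner hq hqM (atkinLehner hq hqM f)) = _
    rw [atkinLehner_atkinLehner]
    rfl
  alpha_smul := atkinLehner_alpha hq hqM _
  beta_smul := atkinLehner_beta hq hqM _
  involutive := wAut_mul_self hq hqM

variable {p : ℕ} [Fact p.Prime]

include hq hA in
theorem natCast_pow_ne_zero (hpq : p ≠ q) (m : ℕ) : ((p ^ m : ℕ) : kA) ≠ 0 := by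
  haveI := GalCommon.charP_residueField hq hA
  rw [Nat.cast_pow]
  refine pow_ne_zero _ fun h => hpq ?_
  exact ((Nat.prime_dvd_prime_iff_eq hq Fact.out).mp ((CharP.cast_eq_zero_iff kA q p).mp h)).symm

/-- A class of the form `σ z - z` with `σ` in inertia is fixed by inertia. -/
theorem inertia_smul_sub (hpq : p ≠ q) (m : ℕ) {σ τ : Γℚ} (hσ : σ ∈ A.inertiaSubgroupIn ℚ)
    (hτ : τ ∈ A.inertiaSubgroupIn ℚ) {z : JZero (M * q)}
    (hz : z ∈ Reps.tors (M * q) (p ^ m)) (hq : q.Prime) (hqM : ¬ q ∣ M) (hA : A.LiesOverPrime q) :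
    galF (M * q) σ • (galF (M * q) τ • z - z) = galF (M * q) τ • z - z := by
  haveI := GalCommon.isAlgClosed_residueField A hq hA
  obtain ⟨gd⟩ := (compat_inertia A M q hq hqM hA (hgen A hq hqM hA) hτ).exists_good_sub
    (pow_ne_zero m (Fact.out : p.Prime).ne_zero) hz
  exact gd.inertia_eq (natCast_pow_ne_zero A hq hA hpq m) (one_le_nX A hq hqM hA)
    (compat_inertia A M q hq hqM hA (hgen A hq hqM hA) hσ)

variable (p) in
/-- The Galois matrices on the Tate module. -/
abbrev galP (N : ℕ) [NeZero N] :
    Γℚ →* Matrix (Fin (Period.rankH N)) (Fin (Period.rankH N)) ℤ_[p] :=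
  (Reps.galModel N p).M

theorem galP_coord (N : ℕ) [NeZero N] (m : ℕ) (σ : Γℚ) (x : Reps.tors N (p ^ m)) :
    (PadicInt.toZModPow m).mapMatrix (galP p N σ) *ᵥ Reps.coordTors N (p ^ m) x =
      Reps.coordTors N (p ^ m) (JZero.torsionGaloisRep N (p ^ m) σ x) :=
  (Reps.galModel_coord N p m σ x).symm

variable (p) in
/-- Inertia is unipotent of echelon two. -/
theorem sub_one_mul_sub_one (hpq : p ≠ q) (hq : q.Prime) (hqM : ¬ q ∣ M)
    (hA : A.LiesOverPrime q) {σ τ : Γℚ} (hσ : σ ∈ A.inertiaSubgroupIn ℚ)
    (hτ : τ ∈ A.inertiaSubgroupIn ℚ) :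
    (galP p (M * q) σ - 1) * (galP p (M * q) τ - 1) = 0 := by
  refine Reps.padicMatrix_ext fun m => ?_
  refine Reps.ext_mulVec (M * q) (p ^ m) fun x => ?_
  set y : Reps.tors (M * q) (p ^ m) := JZero.torsionGaloisRep (M * q) (p ^ m) τ x - x
  have hy : JZero.torsionGaloisRep (M * q) (p ^ m) σ y = y :=
    Subtype.ext (inertia_smul_sub A hpq m hσ hτ x.2 hq hqM hA)
  rw [map_mul, map_zero, Matrix.zero_mulVec, ← Matrix.mulVec_mulVec, map_sub, map_sub, map_one,
    Matrix.sub_mulVec, Matrix.one_mulVec, Matrix.sub_mulVec, Matrix.one_mulVec,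
    galP_coord, ← map_sub, galP_coord, hy, sub_self]

end FLTAgent.BadOdd
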